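import Fermat.Agent.BAD.AtP.LocalExtend
import Fermat.Agent.BAD.AtP.LocalOrd

/-!
# Local fields containing a given number field, with a move of nontrivial cyclotomic character

The tame field of the `(p - 1)`-st root of `p` is enlarged by a finite normal extension of `ℚ`,
then by a root of unity so that the index gains a factor `p`.
-/

set_option autoImplicit false

noncomputable section

open Fermat.EC.Val Fermat.FLAT Fermat.BAD.AtP

namespace Fermat.BAD.Ord

local notation "ℚbar" => AlgebraicClosure ℚ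
local notation "Γℚ" => (AlgebraicClosure ℚ ≃ₐ[ℚ] AlgebraicClosure ℚ)
local notation "M2p" p => Matrix (Fin 2) (Fin 2) (ZMod p)

variable {p : ℕ} [hp : Fact p.Prime] {A : ValuationSubring ℚbar}

section Adjoin

variable {rb : Γℚ →* GL (Fin 2) (ZMod p)} {a₀ : ℕ} (F : LocalField p A rb a₀)

/-- **A field containing a finite normal extension of `ℚ`.** -/
theorem exists_adjoin_normal (h : IsPlace A p) (T : ThreshMove p F) (L : IntermediateField ℚ ℚbar)
    [FiniteDimensional ℚ L] [Normal ℚ L] :
    ∃ (a₀' : ℕ) (F' : LocalField p A rb a₀') (T' : ThreshMove p F'),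
      T'.γ = T.γ ∧ F.M ≤ F'.M ∧ ∀ x ∈ L, x ∈ F'.M := by
  classical
  obtain ⟨S₀, hS₀⟩ : ∃ S₀ : Finset ℚbar, IntermediateField.adjoin ℚ (S₀ : Set ℚbar) = L :=
    IntermediateField.fg_of_fg_toSubalgebra L (Subalgebra.fg_of_fg_toSubmodule
      ((Module.Finite.iff_fg (N := Subalgebra.toSubmodule L.toSubalgebra)).mp
        (inferInstanceAs (Module.Finite ℚ L))))
  set E : IntermediateField F.toInt ℚbar := IntermediateField.adjoin F.toInt (S₀ : Set ℚbar)
  have : FiniteDimensional F.toInt E := IntermediateField.finiteDimensional_adjoin fun x _ =>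
    (Algebra.IsIntegral.isIntegral (R := ℚ) x).tower_top
  have hLE : L ≤ IntermediateField.restrictScalars ℚ E := by
    rw [← hS₀, IntermediateField.adjoin_le_iff]
    exact fun y hy => IntermediateField.subset_adjoin F.toInt _ hy
  obtain ⟨e, ρ', he0, hρE, hρI, hkey⟩ := F.exists_uniformiser h E
  obtain ⟨χ, hχ, hχres⟩ := F.exists_char_extend h T he0 hρI
  let T' : ThreshMove p (F.enlarge h E e ρ' he0 hρE hρI hkey) :=
    { γ := T.γ
      mem := T.mem
      maps := fun c hc => F.maps_adjoin T (fun y hy => by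
        have hy' : y ∈ L := hS₀ ▸ IntermediateField.subset_adjoin ℚ _ hy
        change T.γ (algebraMap L ℚbar ⟨y, hy'⟩) ∈ E
        rw [← AlgEquiv.restrictNormal_commutes T.γ L ⟨y, hy'⟩]
        exact hLE (T.γ.restrictNormal L ⟨y, hy'⟩).2) hc
      χ := χ
      smul_pow := hχ
      χ_res := hχres.trans T.χ_res }
  exact ⟨e * a₀, _, T', rfl, fun x hx => E.algebraMap_mem ⟨x, hx⟩, fun x hx => hLE hx⟩

end Adjoin

/-- The cyclotomic character and the trivial one on the diagonal. -/
def cycRep (p : ℕ) [Fact p.Prime] : Γℚ →* GL (Fin 2) (ZMod p) :=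
  (Units.map (Matrix.diagonalRingHom (Fin 2) (ZMod p)).toMonoidHom).comp
    ((MulEquiv.piUnits.symm.toMonoidHom).comp
      (MonoidHom.pi ![Fermat.CFT.cycChar p, (1 : Γℚ →* (ZMod p)ˣ)]))

/-- The determinant of `cycRep` is the cyclotomic character. -/
theorem cycRep_det (σ : Γℚ) : ((cycRep p σ : GL (Fin 2) (ZMod p)) : M2p p).det =
    ((Fermat.CFT.cycChar p σ : (ZMod p)ˣ) : ZMod p) := by
  change (Matrix.diagonal _).det = _
  simp [Matrix.det_diagonal, Fin.prod_univ_two]

/-- `cycRep` is trivial where the cyclotomic character is. -/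
theorem cycRep_eq_one {σ : Γℚ} (hσ : Fermat.CFT.cycChar p σ = 1) : cycRep p σ = 1 := by
  have h1 : MonoidHom.pi ![Fermat.CFT.cycChar p, (1 : Γℚ →* (ZMod p)ˣ)] σ = 1 := by
    funext i
    fin_cases i
    · exact hσ
    · rfl
  simp only [cycRep, MonoidHom.comp_apply, h1, map_one]

/-- `cycRep` has open kernel. -/
theorem isOpen_cycRep_ker : IsOpen ((cycRep p).ker : Set Γℚ) :=
  Subgroup.isOpen_mono (H₁ := (Fermat.CFT.cycChar p).ker) (fun _ h => cycRep_eq_one h)
    (Fermat.CFT.isOpen_cycChar_ker p)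

/-- The two local fields used: the first contains `L`, the second has index divisible by `p`
over it, and the move has cyclotomic character other than one. -/
structure TwoFields (p : ℕ) [Fact p.Prime] (A : ValuationSubring ℚbar)
    (L : IntermediateField ℚ ℚbar) where
  /-- The index `a₁` of the first field. -/
  a₁ : ℕ
  /-- The index `a₂` of the second field. -/
  a₂ : ℕ
  /-- The first field, containing `L`. -/
  F₁ : LocalField p A (cycRep p) a₁
  /-- The second field, containing the first. -/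
  F₂ : LocalField p A (cycRep p) a₂
  /-- The move of inertia on the second field. -/
  T₂ : ThreshMove p F₂
  /-- The relative index `e` of the two fields. -/
  e : ℕ
  /-- The relative index is divisible by `p`. -/
  dvd : p ∣ e
  /-- The first field lies in the second. -/
  le : F₁.M ≤ F₂.M
  /-- Values in the second field are `e` times those in the first. -/
  up : ∀ (a : ℚbar) (i : ℤ), HasVal A F₁.ρ a i → HasVal A F₂.ρ a ((e : ℤ) * i)
  /-- The first field contains `L`. -/
  contains : ∀ x ∈ L, x ∈ F₁.M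
  /-- The move has nontrivial cyclotomic character. -/
  cyc_ne : Fermat.CFT.cycChar p T₂.γ ≠ 1

/-- **The fields exist.** For odd `p` and finite normal `L / ℚ` there are local fields `F₁ ≤ F₂`,
`L` in the first, of relative index divisible by `p`, with a move of nontrivial cyclotomic
character. -/
theorem nonempty_twoFields (h : IsPlace A p) (hp2 : p ≠ 2) (L : IntermediateField ℚ ℚbar)
    [FiniteDimensional ℚ L] [Normal ℚ L] : Nonempty (TwoFields p A L) := by
  have : NeZero p := ⟨hp.out.ne_zero⟩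
  obtain ⟨π, hπ⟩ := exists_pi p (p - 1) sub_one_ne_zero'
  have : NeZero ((p - 1 : ℕ) : ℚbar) := ⟨Nat.cast_ne_zero.mpr sub_one_ne_zero'⟩
  have : NeZero (p - 1) := ⟨sub_one_ne_zero'⟩
  obtain ⟨z, hz⟩ := HasEnoughRootsOfUnity.exists_primitiveRoot ℚbar (p - 1)
  obtain ⟨γ, hγ, hγπ⟩ := exists_move h not_dvd_sub_one hπ hz.pow_eq_one
  obtain ⟨ξ, hξ⟩ := HasEnoughRootsOfUnity.exists_primitiveRoot ℚbar p
  -- Start from the tame field of `π = p ^ (1/(p-1))`, containing the `p`-th roots of unity.
  have hfix : ∀ τ ∈ tame A π, τ ξ = ξ := fun τ hτ =>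
    apply_zeta_p h sub_one_ne_zero' hπ (dvd_refl _) hτ hξ.pow_eq_one
  have hN : valIndex p 1 = ((p - 1 : ℕ) : ℚ) := by
    rw [valIndex, Nat.cast_sub hp.out.one_le]; push_cast; ring
  have hker : ∀ τ ∈ tame A π, cycRep p τ = 1 := fun τ hτ => cycRep_eq_one
    ((Fermat.CFT.cycChar_eq_one_iff (q := p) hξ).mpr (hfix τ hτ))
  let D : FieldData p A (cycRep p) 1 :=
    { K := tame A π
      le := fun τ hτ => hτ.1
      ρ := π
      ρ_fix := fun τ hτ => (mem_tame.mp hτ).2
      ρ_is := by rw [hN]; exact is_pi h sub_one_ne_zero' hπ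
      int := fun x hx0 hx => by rw [hN]; exact exists_int_ord_tame h not_dvd_sub_one hπ hx0 hx
      ξ := ξ
      root := hξ
      root_fix := hfix
      ker := hker }
  -- Its move `γ` multiplies `π` by a primitive `(p-1)`-th root of unity `z`.
  obtain ⟨T, hT⟩ := D.exists_threshMove h one_pos isOpen_cycRep_ker cycRep_det hγ fun τ hτ => by
    refine mem_tame.mpr ⟨mul_mem (mul_mem (inv_mem hγ) hτ.1) hγ, ?_⟩
    change γ.symm (τ (γ π)) = π
    rw [AlgEquiv.symm_apply_eq, hγπ, _root_.map_mul, (mem_tame.mp hτ).2,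
      apply_root_eq h not_dvd_sub_one hz.pow_eq_one (isInert_of_mem_tame hτ)]
  -- Adjoin `L`, then extend once more.
  obtain ⟨a₁, F₁, T₁, h1, hle1, hL⟩ := exists_adjoin_normal _ h T L
  obtain ⟨a₂, F₂, T₂, e, h2, hle2, hpe, -, hup⟩ := F₁.exists_extend h T₁
  refine ⟨⟨a₁, a₂, F₁, F₂, T₂, e, hpe, hle2, hup, hL, fun hc => ?_⟩⟩
  -- A move of trivial cyclotomic character has `z ≡ 1`, which forces `p ≤ 2`.
  rw [h2, h1, hT] at hc
  have := charP_res h
  have h3 : red A z = 1 := by
    have := cycChar_cast_eq_psi h hγ hπ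
    rw [hc, psi, hγπ, mul_div_cancel_right₀ _ (is_pi h sub_one_ne_zero' hπ).1, Units.val_one,
      ZMod.val_one, Nat.cast_one] at this
    exact this.symm
  have h4 := Nat.le_of_dvd one_pos (hz.dvd_of_pow_eq_one 1 (by
    rw [pow_one]
    exact red_root_eq_one h not_dvd_sub_one hz.pow_eq_one h3))
  have := hp.out.two_le
  omega

end Fermat.BAD.Ord

end
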