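import Fermat.Agent.BAD.Ord.Rat
import Fermat.Agent.BAD.Inst.Pres
import Fermat.Agent.BAD.Engine.Theorems
import Fermat.Agent.BAD.Mono.Discrete
import Fermat.Agent.BAD.Mono.Twist
import Fermat.Agent.JAC.FieldOfDef

/-!
# Presentations of classes fixed over the local field

A class fixed by the automorphisms fixing `F.M` has a unique representative `D ≤ l ∞` for the
least possible `l`, hence a fixed one; if `n` kills the class, a function with divisor `n D` and
leading coefficient `1` at `∞` is then fixed, so its inverse has coefficients in `F.M`.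

The argument is that of `Inst/Pres`, now at level `Γ_H(M q)`.
-/

set_option autoImplicit false

attribute [local instance 10000] SubalgebraClass.toAlgebra HahnSeries.powerSeriesAlgebra

noncomputable section

open AlgebraicCurve

namespace Fermat.BAD.Ord

open Fermat.MC Fermat.BAD.XH

local notation "Qb" => AlgebraicClosure ℚ
local notation "Γℚ" => (AlgebraicClosure ℚ ≃ₐ[ℚ] AlgebraicClosure ℚ)

variable (M q : ℕ) [NeZero M] [NeZero q] [Fact q.Prime] (H : Subgroup (ZMod M)ˣ) [Lvl.NegMem H]
  (hq : q.Prime) (hqM : ¬ q ∣ M)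
variable [FF.IsFunctionField Qb (FU M q H)]

/-- The leading coefficient at `∞` is not zero. -/
theorem coeffInf_ord_inf_ne_zero {f : FU M q H} (hf : f ≠ 0) :
    coeffInf M q H ((inf M q H).ord f) f ≠ 0 := by
  change (f : LaurentSeries Qb).coeff ((inf M q H).ord f) ≠ 0
  rw [ord_inf]
  exact HahnSeries.coeff_order_eq_zero.not.mpr fun e => hf (Subtype.ext e)

/-- A class fixed by a set of automorphisms has a fixed representative bounded by `n ∞`. -/
theorem exists_fixed_rep (G : Set Γℚ) {x : Pic0 Qb (FU M q H)} (hfix : ∀ τ ∈ G, τ • x = x) :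
    ∃ (n : ℕ) (D : Divisor Qb (FU M q H)), IsCls D x ∧
      D ≤ Finsupp.single (inf M q H) (n : ℤ) ∧ ∀ τ ∈ G, galAut M q H τ • D = D :=
  exists_fixed_rep_of_place (inf M q H) (coeffInf M q H) (galAut M q H) (galAut_inf M q H)
    (fun _ => coeffInf_ord_inf_ne_zero M q H) G hfix

variable {A : ValuationSubring (AlgebraicClosure ℚ)}
  [IsAlgClosed (IsLocalRing.ResidueField A)]
  [FF.IsFunctionField (IsLocalRing.ResidueField A) (KH M H A)]
variable {rb : Γℚ →* GL (Fin 2) (ZMod q)} {a₀ : ℕ} (F : AtP.LocalField q A rb a₀)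
variable (X : Degen (IsLocalRing.residue A) (emb M q H hq hqM)
  (KH M H A))
variable (hA0 : X.A0 = A0 M q H)
include hA0

/-- **Presentations exist.** A class at level `Γ_H(M q)` killed by `n` and fixed by the
automorphisms fixing `F.M` has a presentation rational over `F`. -/
theorem exists_pres {n : ℕ} {x : Pic0 Qb (FU M q H)} (hx : n • x = 0)
    (hfix : ∀ τ ∈ Inst.fixSet F.M, τ • x = x) :
    ∃ (l : ℕ) (D : Divisor.degZero (K := Qb) (F := FU M q H)) (y : FU M q H) (c1 c0 : Qb),
      Pic0.mk D = x ∧
        X.Pres (ratData M q H hq hqM F) n l (D : Divisor Qb (FU M q H)) y c1 c0 :=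
  exists_pres_of_place (inf M q H) (coeffInf M q H) (galAut M q H) X (ratData M q H hq hqM F)
    (galAut_inf M q H)
    (fun _ => coeffInf_ord_inf_ne_zero M q H) (Inst.fixSet F.M)
      (fun _ => mem_ratData_R M q H hq hqM F)
    (fun τ _ a f hf => by
      rw [show coeffInf M q H a (galAut M q H τ • f) = τ (coeffInf M q H a f) from
        emb_galAut_coeff M q H hq hqM τ true f a, hf, map_one])
    (hA0 ▸ A0_inf_pos M q H) (fun τ _ => hA0.symm ▸ galAut_A0 M q H τ)
    (fun τ _ hD _ hf => hD ▸ FF.smul_mem_riemannRochSpace (galAut M q H τ) hf)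
    (fun V _ => le_span_galAut_fixed M q H (Inst.fixSet F.M) V) hx hfix

end Fermat.BAD.Ord

end
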