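import Fermat.Agent.BAD.AtP.Scalar
import Fermat.Agent.BAD.XH.Setup
import Fermat.Agent.BAD.Wit.Eigen

/-!
# The move acts by the residue of its character

For a class with a presentation whose reductions are both `p`-th powers, a scale and pushforward
norms which are powers, an element of inertia with character `χ` at the threshold multiplies the
class by the residue of `χ`.
-/

set_option autoImplicit false

attribute [local instance 10000] SubalgebraClass.toAlgebra HahnSeries.powerSeriesAlgebra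

noncomputable section

open AlgebraicCurve ModularCurve IsLocalRing

namespace Fermat.BAD.Ord

open Fermat.FF Fermat.MC Fermat.JAC Fermat.JAC.XH Fermat.BAD.XH Fermat.BAD.AtP

local notation "Qb" => AlgebraicClosure ℚ
local notation "Γℚ" => (AlgebraicClosure ℚ ≃ₐ[ℚ] AlgebraicClosure ℚ)

variable {p : ℕ} [Fact p.Prime] {M : ℕ} [NeZero M] [NeZero p] {H : Subgroup (ZMod M)ˣ}
  [Lvl.NegMem H] (hpM : ¬ p ∣ M)
  {A : ValuationSubring Qb} [IsAlgClosed (ResidueField A)]
  {K : IntermediateField (ResidueField A) (LaurentSeries (ResidueField A))}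
  [IsFunctionField (ResidueField A) K] [IsFunctionField Qb (FU M p H)]

variable {hpM}

/-- A presentation of `x` with both reductions `p`-th powers, scaled and with power norms. -/
structure PowerPres
    (X : Degen (residue A) (XH.emb M p H Fact.out hpM) K)
    (R : RatData (residue A) (XH.emb M p H Fact.out hpM))
    {F' : Bool → Type} [∀ b, Field (F' b)] (ND : ∀ b, NormData X R b (F' b))
    (x : Pic0 Qb (FU M p H)) where
  /-- The divisor `D` of degree zero with class `x`. -/
  D : Divisor.degZero (K := Qb) (F := FU M p H)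
  /-- `D` represents the class. -/
  class_eq : Pic0.mk D = x
  /-- The bound `l₀` on the pole of `D` at `∞`. -/
  l₀ : ℕ
  /-- The function `y` of the presentation. -/
  y : FU M p H
  /-- The scale `c1` of `y` at the first component. -/
  c1 : Qb
  /-- The scale `c0` of `y` at the second component. -/
  c0 : Qb
  /-- `D` and `y` present the class at level `p`, with scales `c1` and `c0`. -/
  pres : X.Pres R p l₀ (D : Divisor Qb (FU M p H)) y c1 c0
  /-- A `p`-th root of the ratio of the scales, up to a unit reducing to one. -/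
  e : Qb
  /-- `e` lies in `M`. -/
  e_mem : e ∈ R.M
  /-- `e` is nonzero. -/
  e_ne : e ≠ 0
  /-- `c1 / (e ^ p c0)` is integral. -/
  mu : c1 / (e ^ p * c0) ∈ A
  /-- `e ^ p c0 / c1` is integral. -/
  nu : e ^ p * c0 / c1 ∈ A
  /-- `c1 / (e ^ p c0)` reduces to one. -/
  mu_one : residue A ⟨_, mu⟩ = 1
  /-- The roots of the reductions. -/
  hh : Bool → K
  /-- `c1 y` reduces to a `p`-th power on the first component. -/
  red_true : X.red true (c1 • y) = hh true ^ p
  /-- `c0 y` reduces to a `p`-th power on the second component. -/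
  red_false : X.red false (c0 • y) = hh false ^ p
  /-- The pushforward norms of `y` are `p`-th powers. -/
  norm_pow : ∀ b, ∃ W : F' b, W ^ p = (ND b).N y

/-- **The move is the residue of its character.** -/
theorem smul_eq_nsmul_of_powerPres
    {X : Degen (residue A) (XH.emb M p H Fact.out hpM) K}
    {R : RatData (residue A) (XH.emb M p H Fact.out hpM)}
    {a₀ : ℕ} (ht : Thresh R p a₀) (hfix : FixM R) {ζ : Qb} (hζ : IsPrimitiveRoot ζ p)
    (hlam : R.Val (1 - ζ) a₀) (hl : ∀ n, X.N0 ≤ n → X.LiftGlue R n) (hS : X.S.Nonempty)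
    {ϖ : Qb} (hϖ : ϖ ≠ 0) (hN : X.Node ϖ)
    {F' : Bool → Type} [∀ b, Field (F' b)] (ND : ∀ b, NormData X R b (F' b))
    {γ : Γℚ} (T : Degen.CoeffAut X R) (hTσ : ∀ c, T.σ c = γ c)
    (hTs : ∀ f, T.s f = arithmeticGalois (Lvl.FQ (Lvl.GammaH (M * p) (upH M H p))) γ • f)
    {χ : A} (hχ : γ (R.ρ ^ ((p : ℤ) * a₀)) = R.ρ ^ ((p : ℤ) * a₀) * (χ : Qb)) {d : ZMod p}
    (hd : d ≠ 0) (hχd : residue A χ = ((d.val : ℕ) : ResidueField A))
    {x : Pic0 Qb (FU M p H)} (hpx : p • x = 0) (P : PowerPres X R ND x) : γ • x = d.val • x := by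
  have : CharP (ResidueField A) p := (CharP.charP_iff_prime_eq_zero Fact.out).mpr ht.char
  set g := arithmeticGalois (Lvl.FQ (Lvl.GammaH (M * p) (upH M H p))) γ
  obtain ⟨l, hl'⟩ : ∃ l : ℕ, (-d).val = l + 1 :=
    ⟨(-d).val - 1, (Nat.succ_pred_eq_of_ne_zero (by
      rw [ne_eq, ZMod.val_eq_zero, neg_eq_zero]; exact hd)).symm⟩
  have hlχ : residue A χ + ((l + 1 : ℕ) : ResidueField A) = 0 := by
    rw [hχd, ← hl', ← Nat.cast_add, CharP.cast_eq_zero_iff _ p, ← ZMod.natCast_eq_zero_iff,
      Nat.cast_add, ZMod.natCast_zmod_val, ZMod.natCast_zmod_val, add_neg_cancel]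
  have hD' : divOf Qb (T.s P.y) = p • (g • (P.D : Divisor Qb (FU M p H))) := by
    rw [hTs, JAC.divOf_smul, P.pres.div_eq, ← smul_nsmul_comm (σ := g)]
  obtain ⟨u, hu, hudiv⟩ := Degen.eigen_principal ht hfix hζ hlam hl hS P.pres hϖ hN P.e_mem P.e_ne
    P.mu P.nu P.mu_one P.red_true P.red_false ND P.norm_pow T hD' (χ := χ)
    (by rw [hTσ]; exact hχ) hlχ
  have hrel : γ • x + (l + 1) • x = 0 := by
    rw [← P.class_eq, galois_smul_pic0_def, SemilinearAut.pic0_smul_mk, pic0_mk_nsmul,
      ← Pic0.mk_add, pic0_mk_eq_zero_iff]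
    refine ⟨u, hu, ?_⟩
    rw [AddSubgroup.coe_add, AddSubgroup.coe_nsmul, SemilinearAut.coe_degZeroSMulHom]
    exact hudiv
  rw [eq_neg_of_add_eq_zero_left hrel, ← hl', neg_eq_iff_add_eq_zero, ← val_nsmul_add hpx,
    neg_add_cancel, ZMod.val_zero, zero_nsmul]

end Fermat.BAD.Ord
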