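import Fermat.Agent.BAD.Ord.Rat
import Fermat.Agent.BAD.AtP.Scale

/-!
# Presentations over a larger local field

`pres_mono`: a presentation over `F.M` is one over any larger field `F'.M`, so `Engine` may enlarge
the field to one with a move of nontrivial character (`Local`).
-/

set_option autoImplicit false
set_option linter.unusedSectionVars false

noncomputable section

open AlgebraicCurve IsLocalRing

namespace Fermat.BAD.Ord

open Fermat.MC Fermat.BAD.XH Fermat.BAD.AtP

local notation "Qb" => AlgebraicClosure ℚ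
local notation "Γℚ" => (AlgebraicClosure ℚ ≃ₐ[ℚ] AlgebraicClosure ℚ)

variable (M p : ℕ) [NeZero M] [NeZero p] [Fact p.Prime] (H : Subgroup (ZMod M)ˣ) [Lvl.NegMem H]
  (hp : p.Prime) (hpM : ¬ p ∣ M)
variable {A : ValuationSubring (AlgebraicClosure ℚ)}
variable [FF.IsFunctionField Qb (FU M p H)] [IsAlgClosed (ResidueField A)]
  [FF.IsFunctionField (ResidueField A) (KH M H A)]
variable {rb : Γℚ →* GL (Fin 2) (ZMod p)} {a₀ a₁ : ℕ} (F : LocalField p A rb a₀)
  (F' : LocalField p A rb a₁)
variable {X : Degen (residue A) (emb M p H hp hpM) (KH M H A)}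

/-- Rational functions over `F` are rational over a larger field. -/
theorem ratData_R_mono (hle : F.M ≤ F'.M) :
    (ratData M p H hp hpM F).R ≤ (ratData M p H hp hpM F').R :=
  fun _ hf b n => hle (hf b n)

/-- A presentation over `F` is one over a larger field. -/
theorem pres_mono (hle : F.M ≤ F'.M) {l : ℕ} {D : Divisor Qb (FU M p H)}
    {y : FU M p H} {c1 c0 : Qb}
    (h : X.Pres (ratData M p H hp hpM F) p l D y c1 c0) :
    X.Pres (ratData M p H hp hpM F') p l D y c1 c0 where
  y_ne := h.y_ne
  div_eq := h.div_eq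
  inv_mem := ratData_R_mono M p H hp hpM F F' hle h.inv_mem
  le_A0 := h.le_A0
  c1_mem := hle h.c1_mem
  c0_mem := hle h.c0_mem
  prim_true := h.prim_true
  prim_false := h.prim_false
  span m := (h.span m).trans (Submodule.span_mono fun _ hw =>
    ⟨hw.1, ratData_R_mono M p H hp hpM F F' hle hw.2⟩)

end Fermat.BAD.Ord

end
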