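import Fermat.Agent.BAD.Ord.Norm
import Fermat.Agent.BAD.Ord.Pres
import Fermat.Agent.BAD.Ord.Scalar
import Fermat.Agent.BAD.Ord.Scale
import Fermat.Agent.BAD.Ord.Local
import Fermat.Agent.BAD.AtP.Powers
import Fermat.Agent.BAD.AtP.PhiCore

/-!
# Classes with power reductions and killed pushforwards move by the cyclotomic character

`smul_eq_cyc`: at level `Γ_H(M p)`, a class killed by `p` whose two reductions are `p`-th powers and
whose two pushforwards to level `M` vanish is multiplied by the cyclotomic character by the moves of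
the local fields (`Pres`, `Norm`, `Scalar`, `Local`). `Torsion` applies it to the layers killed
by `p` of its subgroup `bothNull`.
-/

set_option autoImplicit false

attribute [local instance 10000] SubalgebraClass.toAlgebra HahnSeries.powerSeriesAlgebra

noncomputable section

open AlgebraicCurve IsLocalRing

namespace Fermat.BAD.Ord

open Fermat.FF Fermat.MC Fermat.JAC Fermat.BAD.XH Fermat.BAD.AtP

local notation "Qb" => AlgebraicClosure ℚ
local notation "Γℚ" => (AlgebraicClosure ℚ ≃ₐ[ℚ] AlgebraicClosure ℚ)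

variable {M p : ℕ} [NeZero M] [NeZero p] [Fact p.Prime] {H : Subgroup (ZMod M)ˣ} [Lvl.NegMem H]
  (hpM : ¬ p ∣ M)
variable [FF.IsFunctionField Qb (FU M p H)] [FF.IsFunctionField Qb (FH M H)]
variable {A : ValuationSubring (AlgebraicClosure ℚ)} (hA : A.LiesOverPrime p)
  [IsAlgClosed (ResidueField A)] [CharP (ResidueField A) p]
  [FF.IsFunctionField (ResidueField A) (KH M H A)]
variable (hν2 : Lvl.nuTwoG (Lvl.GammaH M H) = 0) (hν3 : Lvl.nuThreeG (Lvl.GammaH M H) = 0)

local notation "X" => degen M p H Fact.out hpM hA hν2 hν3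

omit [IsFunctionField Qb ↥(FU M p H)] in
/-- The scale `p` is a node. -/
theorem node_degen : Degen.Node X (p : Qb) :=
  node M p H Fact.out hpM hA X rfl rfl (fun _ _ => rfl)
    fun _ hs => ord_hbar_eq M p H Fact.out hpM hA X rfl hν2 hν3 hs

/-- The two pushforwards of a killed class give the two norms as powers. -/
theorem exists_root_degN {x : Pic0 Qb (FU M p H)}
    (hal : pushPic (al M p H) x = 0) (hbe : pushPic (be M p H) x = 0)
    {n : ℕ} (hn : n ≠ 0) {D : Divisor.degZero (K := Qb) (F := FU M p H)} (hD : Pic0.mk D = x)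
    {y : FU M p H} (hy : y ≠ 0) (hdiv : divOf Qb y = n • (D : Divisor Qb (FU M p H))) (b : Bool) :
    ∃ W : FH M H, W ^ n = degN M p H Fact.out hpM b y := by
  cases b
  · obtain ⟨W, hW⟩ := exists_root_normAlong (be M p H) hn (D := D) (by rw [hD]; exact hbe) hy hdiv
    exact ⟨dq M p H Fact.out hpM W, by rw [← map_pow, hW, degN_false]⟩
  · obtain ⟨W, hW⟩ := exists_root_normAlong (al M p H) hn (D := D) (by rw [hD]; exact hal) hy hdiv
    exact ⟨W, hW⟩

/-- **The move of a class with power reductions is the cyclotomic character.** -/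
theorem smul_eq_cyc {L : IntermediateField ℚ Qb} (Fs : TwoFields p A L)
    {x : Pic0 Qb (FU M p H)} (hx : p • x = 0)
    (hfix : ∀ τ : Γℚ, (∀ c ∈ L, τ c = c) → τ • x = x)
    (hred : ∀ (b : Bool) (D : Divisor Qb (FU M p H)) (y : FU M p H) (c : Qb),
      Degen.Rep X p b x D y c → ∃ z, (Degen.red X b (c • y)) = z ^ p)
    (hal : pushPic (al M p H) x = 0) (hbe : pushPic (be M p H) x = 0) :
    Fs.T₂.γ • x = ((Fermat.CFT.cycChar p Fs.T₂.γ : (ZMod p)ˣ) : ZMod p).val • x := by
  obtain ⟨l, D, y, c1, c0, hD, h⟩ := exists_pres M p H Fact.out hpM Fs.F₁ X rfl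
    hx fun τ hτ => hfix τ fun c hc => hτ c (Fs.contains c hc)
  obtain ⟨hr1, hr0⟩ := Degen.Pres.rep h (⟨D.2, hD⟩ : IsCls _ x)
  obtain ⟨z1, hz1⟩ := hred true _ _ _ hr1
  obtain ⟨z0, hz0⟩ := hred false _ _ _ hr0
  obtain ⟨s, hsM, hs0, hμ, hν, hone⟩ :=
    AtP.exists_scale p Fs.dvd Fs.up h.c1_mem h.c0_mem h.c1_ne h.c0_ne
  let ND := fun b => normData M p H Fact.out hpM hA Fs.F₂ X rfl b
  let P : PowerPres X (ratData M p H Fact.out hpM Fs.F₂) ND x :=
    { D := D, class_eq := hD, l₀ := l, y := y, c1 := c1, c0 := c0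
      pres := pres_mono M p H Fact.out hpM Fs.F₁ Fs.F₂ Fs.le h
      e := s, e_mem := hsM, e_ne := hs0, mu := hμ, nu := hν, mu_one := hone
      hh := fun b => cond b z1 z0, red_true := hz1, red_false := hz0
      norm_pow := fun b => exists_root_degN hpM hal hbe (Fact.out : p.Prime).ne_zero hD h.y_ne
        h.div_eq b }
  have hS : (X).S.Nonempty := SS_nonempty M p H Fact.out hpM hA
  have hχ := Fs.T₂.χ_res
  rw [cycRep_det] at hχ
  exact smul_eq_nsmul_of_powerPres (thresh_ratData M p H Fact.out hpM Fs.F₂)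
    (fixM_ratData M p H Fact.out hpM Fs.F₂) Fs.F₂.ζ_prim (val_lam_ratData M p H Fact.out hpM Fs.F₂)
    (fun _ hn => liftGlue M p H Fact.out hpM hA Fs.F₂ X rfl hn) hS
    (Nat.cast_ne_zero.mpr (Fact.out : p.Prime).ne_zero) (node_degen hpM hA hν2 hν3) ND
    (coeffAut M p H Fact.out hpM Fs.F₂ X rfl Fs.T₂.γ Fs.T₂.mem Fs.T₂.maps) (fun _ => rfl)
    (fun _ => rfl) (χ := Fs.T₂.χ) Fs.T₂.smul_pow
    (Fermat.CFT.cycChar p Fs.T₂.γ).ne_zero hχ hx P

end Fermat.BAD.Ord

end
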