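import Fermat.Agent.BAD.Ord.Relation
import Fermat.Agent.BAD.XH.Hecke

/-!
# The square of Frobenius on classes with vanishing pushforwards

`nullAt_frobenius`: at level `Γ_H(M q)` the square of a Frobenius at `q` and the diamond of `q`
differ on such a class by a class reducing to powers at both components; inertia moves every class
by such a class. The source is the norm relation of `Relation`; the consumer is `Torsion`.
-/

set_option autoImplicit false
set_option linter.unusedSectionVars false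

attribute [local instance 10000] SubalgebraClass.toAlgebra HahnSeries.powerSeriesAlgebra

noncomputable section

open ModularCurve AlgebraicCurve IsLocalRing

namespace Fermat.BAD.Ord

open Fermat.FF Fermat.MC Fermat.JAC Fermat.JAC.XH Fermat.RED Fermat.RED.Model
open Fermat.BAD.XH
open Fermat.JAC.X0 (embC)

local notation "Qb" => AlgebraicClosure ℚ
local notation "Γℚ" => (AlgebraicClosure ℚ ≃ₐ[ℚ] AlgebraicClosure ℚ)

variable {M q : ℕ} [NeZero M] [NeZero q] [Fact q.Prime] {H : Subgroup (ZMod M)ˣ} [Lvl.NegMem H]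
  (hqM : ¬ q ∣ M)

/-- **The square of the Atkin-Lehner operator is a diamond.** -/
theorem sqW_eq_diamond {u : (ZMod (M * q))ˣ}
    (hu : ZMod.unitsMap (dvd_mul_right M q) u = qUnit M q Fact.out hqM) (f : FU M q H) :
    sqW M q H Fact.out hqM f = Lvl.diamondHom (upH M H q) embC u⁻¹ f := by
  refine XH.ringHom_ext M q H Fact.out hqM (φ := (sqW M q H Fact.out hqM).toAlgHom.toRingHom)
    (ψ := (Lvl.diamondHom (upH M H q) embC u⁻¹).toAlgHom.toRingHom) (fun x => ?_) ?_ f
  · change sqW M q H Fact.out hqM (al M q H x) = Lvl.diamondHom (upH M H q) embC u⁻¹ (al M q H x)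
    rw [sqW_al, diamond_al, map_inv, hu]
    rfl
  · change sqW M q H Fact.out hqM (bj M q H) = Lvl.diamondHom (upH M H q) embC u⁻¹ (bj M q H)
    rw [sqW_bj, bj, diamond_be, diamondHom_jL]

variable [FF.IsFunctionField Qb (FU M q H)] [FF.IsFunctionField Qb (FH M H)]

variable {A : ValuationSubring (AlgebraicClosure ℚ)} (hA : A.LiesOverPrime q)
  [IsAlgClosed (ResidueField A)] [CharP (ResidueField A) q]
  [FF.IsFunctionField (ResidueField A) (KH M H A)]
variable (hν2 : Lvl.nuTwoG (Lvl.GammaH M H) = 0) (hν3 : Lvl.nuThreeG (Lvl.GammaH M H) = 0)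

/-- The inverse Atkin-Lehner automorphism fixes constants. -/
theorem baseAut_atkinAut_inv (c : Qb) :
    SemilinearAut.baseAut (atkinAut M q H Fact.out hqM)⁻¹ c = c := by
  have h : SemilinearAut.baseAut (atkinAut M q H Fact.out hqM) = 1 :=
    SemilinearAut.baseAut_ofAlgAut _
  change (SemilinearAut.baseAut (atkinAut M q H Fact.out hqM))⁻¹ c = c
  rw [h, inv_one]
  rfl

/-- A presentation at `∞` moved by the inverse Atkin-Lehner operator is one at the other cusp. -/
theorem rep_atkin_inv {n : ℕ} {x : Pic0 Qb (FU M q H)} {D : Divisor Qb (FU M q H)}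
    {y : FU M q H} {c : Qb}
    (h : Degen.Rep (degen M q H Fact.out hqM hA hν2 hν3) n true x D y c) :
    Degen.Rep (degen M q H Fact.out hqM hA hν2 hν3) n false ((atkinAut M q H Fact.out hqM)⁻¹ • x)
        ((atkinAut M q H Fact.out hqM)⁻¹ • D) ((atkinAut M q H Fact.out hqM)⁻¹ • y) c ∧
      (degen M q H Fact.out hqM hA hν2 hν3).red false (c • (atkinAut M q H Fact.out hqM)⁻¹ • y) =
        (degen M q H Fact.out hqM hA hν2 hν3).red true (c • y) := by
  set a := (atkinAut M q H Fact.out hqM)⁻¹
  obtain ⟨h1, h2⟩ := gRed_transfer (π := residue A)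
    (ι := emb M q H Fact.out hqM true) (ι' := emb M q H Fact.out hqM false)
    (atkin M q H Fact.out hqM).symm.toAlgHom.toRingHom
    (fun z => by
      change (atkin M q H Fact.out hqM ((atkin M q H Fact.out hqM).symm z) : LaurentSeries Qb) = _
      rw [AlgEquiv.apply_symm_apply]
      rfl) h.prim.1
  have e : a • (c • y) = c • a • y := by
    rw [Algebra.smul_def, smul_mul', SemilinearAut.smul_algebraMap, baseAut_atkinAut_inv,
      ← Algebra.smul_def]
  have hh : (atkin M q H Fact.out hqM).symm (c • y) = c • a • y := by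
    rw [← e, atkinAut_inv_smul]
  change (atkin M q H Fact.out hqM).symm (c • y) ∈ _ at h1
  change gRed _ _ ((atkin M q H Fact.out hqM).symm (c • y)) = _ at h2
  rw [hh] at h1 h2
  have hred : (degen M q H Fact.out hqM hA hν2 hν3).red false (c • a • y) =
      (degen M q H Fact.out hqM hA hν2 hν3).red true (c • y) := Subtype.ext h2
  refine ⟨⟨h.cls.smul a, (smul_ne_zero_iff_ne a).mpr h.y_ne, ?_, h1, hred ▸ h.red_ne⟩, hred⟩
  rw [JAC.divOf_smul, h.div_eq]
  exact map_nsmul (DistribSMul.toAddMonoidHom (Divisor Qb (FU M q H)) a) n D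

/-- Inertia moves classes by null ones. -/
theorem nullAt_inertia {σ : Γℚ} (hσ : σ ∈ A.inertiaSubgroupIn ℚ) {n : ℕ} (hn : n ≠ 0)
    {x : Pic0 Qb (FU M q H)} (hx : n • x = 0) (b : Bool) :
    Degen.NullAt (degen M q H Fact.out hqM hA hν2 hν3) n b (σ • x - x) := by
  obtain ⟨hd, he⟩ := residueAut_eq_refl hσ
  have h := Degen.nullAt_sym_sub (b := b) hn (galSym M q H Fact.out hqM hA hν2 hν3 hd) rfl
    (fun z => Subtype.ext (by
      rw [galSym_τ, coe_resAut_smul, he]
      ext k
      rw [coeffMap_coeff]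
      rfl)) hx
  exact h

variable {φ : Γℚ} (hφ : A.IsFrobeniusAt φ q)
include hφ

/-- The image of a presentation under Frobenius. -/
theorem rep_frobenius {n : ℕ} {b : Bool} {x : Pic0 Qb (FU M q H)} {D : Divisor Qb (FU M q H)}
    {y : FU M q H} {c : Qb}
    (h : Degen.Rep (degen M q H Fact.out hqM hA hν2 hν3) n b x D y c) :
    ∃ (D' : Divisor Qb (FU M q H)) (y' : FU M q H) (c' : Qb),
      Degen.Rep (degen M q H Fact.out hqM hA hν2 hν3) n b (φ • x) D' y' c' ∧
        (degen M q H Fact.out hqM hA hν2 hν3).red b (c' • y') =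
          frobK hA ((degen M q H Fact.out hqM hA hν2 hν3).red b (c • y)) := by
  have hd := hφ.mem_decompositionSubgroup
  obtain ⟨h1, h2⟩ := h.sym (galSym M q H Fact.out hqM hA hν2 hν3 hd) rfl
  refine ⟨_, _, _, h1, h2.trans (Subtype.ext ?_)⟩
  rw [galSym_τ, coe_resAut_smul, frobK_apply, coe_frobAut_smul]
  exact coeffMap_congr (RingHom.ext fun a =>
    (RingEquiv.congr_fun (residueAut_eq_frobenius hφ) a).trans (frobeniusEquiv_apply _ q a)) _

/-- **The square of Frobenius on classes with vanishing pushforwards.** -/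
theorem nullAt_frobenius {u : (ZMod (M * q))ˣ}
    (hu : ZMod.unitsMap (dvd_mul_right M q) u = qUnit M q Fact.out hqM) {n : ℕ} (hn : n ≠ 0)
    {x : Pic0 Qb (FU M q H)} (hx : n • x = 0) (hal : pushPic (al M q H) x = 0)
    (hbe : pushPic (be M q H) x = 0) (b : Bool) :
    Degen.NullAt (degen M q H Fact.out hqM hA hν2 hν3) n b
      (φ • φ • x - SemilinearAut.ofAlgAut (Lvl.diamondHom (upH M H q) embC u) • x) := by
  set Y := degen M q H Fact.out hqM hA hν2 hν3
  set a := (atkinAut M q H Fact.out hqM)⁻¹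
  set δ := SemilinearAut.ofAlgAut (Lvl.diamondHom (upH M H q) embC u)
  have haa : a • a • x = δ • x := by
    rw [← mul_smul]
    refine congrArg (· • x) ?_
    rw [← mul_inv_rev, inv_eq_iff_eq_inv]
    refine semilinearAut_ext (fun f => ?_) (by simp [atkinAut, δ]; rfl)
    rw [mul_smul, atkinAut_smul, atkinAut_smul, ← sqW_apply, sqW_eq_diamond hqM hu]
    simp [δ, ← map_inv]
  have hn' : ∀ {g : SemilinearAut Qb (FU M q H)} {z : Pic0 Qb (FU M q H)}, n • z = 0 →
      n • (g • z) = 0 := fun {g z} hz => by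
    have := map_nsmul (DistribSMul.toAddMonoidHom (Pic0 Qb (FU M q H)) g) n z
    rw [hz, map_zero] at this
    exact this.symm
  -- the two relations
  obtain ⟨D, y, c, r1⟩ := Degen.exists_rep (X := Y) true hx
  obtain ⟨D0, y0, c0, r0⟩ := Degen.exists_rep (X := Y) false hx
  have hax : n • (a • x) = 0 := hn' hx
  obtain ⟨E, z, d, s1⟩ := Degen.exists_rep (X := Y) true hax
  obtain ⟨s0, es0⟩ := rep_atkin_inv hqM hA hν2 hν3 r1
  obtain ⟨t0, et0⟩ := rep_atkin_inv hqM hA hν2 hν3 s1
  rw [haa] at t0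
  have R1 := al_relation hqM hA hν2 hν3 hn hx hal r1 r0
  have R2 := al_relation hqM hA hν2 hν3 hn hax
    (by rw [pushPic_al_atkinAut_inv]; exact hbe) s1 s0
  rw [es0] at R2
  have key := powEq_of_relations (frobK hA).toRingHom R1 R2
  -- at the component at `0`
  obtain ⟨D1, y1, c1, p1, ep1⟩ := rep_frobenius hqM hA hν2 hν3 hφ r0
  obtain ⟨D2, y2, c2, p2, ep2⟩ := rep_frobenius hqM hA hν2 hν3 hφ p1
  have hz : n • (φ • φ • x - δ • x) = 0 := by
    rw [nsmul_sub, hn' hx]
    change n • (galAut M q H φ • galAut M q H φ • x) - 0 = 0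
    rw [hn' (hn' hx), sub_zero]
  have hfalse : Degen.NullAt Y n false (φ • φ • x - δ • x) := by
    obtain ⟨D3, y3, c3, r3⟩ := Degen.exists_rep (X := Y) false hz
    obtain ⟨r4, e4⟩ := r3.mul t0
    rw [sub_add_cancel] at r4
    refine Degen.nullAt_of_rep hn hz r3 (PowEq.one_of_mul t0.red_ne ?_)
    have h5 := Degen.Rep.unique hn p2 r4
    rw [e4, ep2, ep1, et0] at h5
    rw [et0]
    exact key.trans h5
  cases b
  · exact hfalse
  · -- at the component at `∞`
    have hzal : pushPic (al M q H) (φ • φ • x - δ • x) = 0 := by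
      rw [map_sub, pushPic_al_galois, pushPic_al_galois, hal, smul_zero (A := Pic0 Qb (FH M H)) φ,
        smul_zero (A := Pic0 Qb (FH M H)) φ,
        pushPic_smul (φ := al M q H) (ψ := al M q H)
          (s := SemilinearAut.ofAlgAut
            (Lvl.diamondHom H embC (ZMod.unitsMap (dvd_mul_right M q) u)))
          (fun f => diamond_al M q H embC u f) x, hal]
      exact (zero_sub _).trans (neg_eq_zero.mpr
        (smul_zero (M := SemilinearAut Qb (FH M H)) (A := Pic0 Qb (FH M H)) _))
    obtain ⟨D5, y5, c5, r5⟩ := Degen.exists_rep (X := Y) true hz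
    obtain ⟨D6, y6, c6, r6⟩ := Degen.exists_rep (X := Y) false hz
    exact Degen.nullAt_of_rep hn hz r5 ((powEq_iff_of_relation (frobK hA)
      (al_relation hqM hA hν2 hν3 hn hz hzal r5 r6)).mpr (hfalse.2 _ _ _ r6))

end Fermat.BAD.Ord

end
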