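import Fermat.Agent.BAD.Inst.Galois
import Fermat.Agent.BAD.XH.Degen

/-!
# The Galois action on the functions of level `Γ_H(M q)` seen through the two expansions

The cusp `∞` is fixed and a finite dimensional stable space of functions has a basis of fixed
functions, as at `Γ₀ (M q)`.
-/

set_option autoImplicit false
set_option linter.unusedSectionVars false

attribute [local instance 10000] SubalgebraClass.toAlgebra HahnSeries.powerSeriesAlgebra

noncomputable section

open ModularCurve AlgebraicCurve

namespace Fermat.BAD.Ord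

open Fermat.FF Fermat.MC Fermat.JAC.XH Fermat.BAD.XH

local notation "Qb" => AlgebraicClosure ℚ
local notation "Γℚ" => (AlgebraicClosure ℚ ≃ₐ[ℚ] AlgebraicClosure ℚ)

variable (M q : ℕ) [NeZero M] [NeZero q] [Fact q.Prime] (H : Subgroup (ZMod M)ˣ) [Lvl.NegMem H]

/-- Galois acts on constants by the Galois action. -/
theorem galAut_algebraMap (σ : Γℚ) (c : Qb) :
    galAut M q H σ • algebraMap Qb (FU M q H) c = algebraMap Qb (FU M q H) (σ c) := by
  rw [galAut, SemilinearAut.smul_algebraMap]
  rfl

/-- The action on functions is semilinear. -/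
theorem galAut_smul_scalar (σ : Γℚ) (c : Qb) (f : FU M q H) :
    galAut M q H σ • (c • f) = σ c • (galAut M q H σ • f) := by
  rw [Algebra.smul_def, smul_mul', galAut_algebraMap, ← Algebra.smul_def]

/-- The action as a ring homomorphism. -/
def galHom (σ : Γℚ) : FU M q H →+* FU M q H :=
  (SemilinearAut.toRingAut (galAut M q H σ)).toRingHom

/-- Galois acts on the coefficients of both expansions. -/
theorem emb_galAut_coeff (hq : q.Prime) (hqM : ¬ q ∣ M) (σ : Γℚ) (b : Bool) (f : FU M q H) (n : ℤ) :
    (emb M q H hq hqM b (galAut M q H σ • f)).coeff n = σ ((emb M q H hq hqM b f).coeff n) := by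
  rw [emb_galAut, coeffMap_coeff]
  rfl

variable [FF.IsFunctionField Qb (FU M q H)]

/-- The expansion at `∞` as a map of algebras. -/
def psiInf : FU M q H →ₐ[Qb] LaurentSeries Qb := (FU M q H).val

/-- The expansion of `aj` at `∞` is the `q`-expansion of `j`. -/
theorem psiInf_aj : psiInf M q H (aj M q H) = jqModC Qb := by
  change (al M q H (jM M H) : LaurentSeries Qb) = _
  rw [coe_al, coe_jM]

/-- The expansion at `∞` has a pole, so defines a place. -/
theorem seriesPole_inf : HT.Cusp.SeriesPole (psiInf M q H) := ⟨aj M q H, fun hm => by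
  rw [psiInf_aj, HT.Cusp.mem_regSeries_iff_order (ModularCurve.jqModC_ne_zero_of_nontrivial Qb),
    HT.Cusp.order_jqModC] at hm
  omega⟩

/-- The place of the cusp `∞` at level `Γ_H(M q)`, given by the expansion there. -/
def inf : Place Qb (FU M q H) := HT.Cusp.seriesPlace (seriesPole_inf M q H)

/-- The order at `∞` is the order of the expansion. -/
theorem ord_inf (f : FU M q H) : (inf M q H).ord f = (f : LaurentSeries Qb).order :=
  HT.Cusp.ord_seriesPlace (seriesPole_inf M q H) (t := aj M q H)
    (by rw [psiInf_aj, HT.Cusp.order_jqModC]) f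

/-- Galois fixes the cusp `∞`. -/
theorem galAut_inf (σ : Γℚ) : galAut M q H σ • inf M q H = inf M q H :=
  X0.smul_place_eq_of_ord _ fun f => by
    rw [ord_inf, ord_inf, coe_galAut_smul]
    exact Inst.order_coeffMap _ (RingHom.injective _) _

/-- The divisor `A0` is positive at `∞`. -/
theorem A0_inf_pos : 0 < A0 M q H (inf M q H) := by
  simp only [A0, Finsupp.add_apply, poleDiv_apply]
  have h1 : (inf M q H).ord (aj M q H) = -1 := by
    rw [ord_inf, ← HT.Cusp.order_jqModC (K := Qb)]
    exact congrArg HahnSeries.order (psiInf_aj M q H)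
  rw [h1]
  have := le_max_right (-(inf M q H).ord (bj M q H)) 0
  simp
  omega

/-- The coefficient at `n` of the expansion at `∞`. -/
def coeffInf (n : ℤ) : FU M q H →ₗ[Qb] Qb where
  toFun f := (f : LaurentSeries Qb).coeff n
  map_add' f g := by rw [AddMemClass.coe_add, HahnSeries.coeff_add]
  map_smul' c f := by
    rw [Algebra.smul_def, MulMemClass.coe_mul, RingHom.id_apply, smul_eq_mul]
    exact Fermat.RED.coeff_algebraMap_mul c _ n

/-- A stable finite dimensional space is spanned by the functions fixed by a set of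
automorphisms. -/
theorem le_span_galAut_fixed (G : Set Γℚ) (V : Submodule Qb (FU M q H)) [FiniteDimensional Qb V]
    (hV : ∀ σ ∈ G, ∀ f ∈ V, galAut M q H σ • f ∈ V) :
    V ≤ Submodule.span Qb {f | f ∈ V ∧ ∀ σ ∈ G, galAut M q H σ • f = f} := by
  have h := Inst.le_span_fixed (coeffInf M q H)
    (fun f hf => Subtype.ext (HahnSeries.ext (funext fun n => hf n)))
    (fun t : G => ((t.1 : Γℚ) : Qb →+* Qb)) (fun t : G => (galHom M q H t.1).toAddMonoidHom)
    (fun t n v => (congrArg (fun z : LaurentSeries Qb => z.coeff n)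
      (coe_arithmeticGalois_smul (Lvl.FQ (Lvl.GammaH (M * q) (upH M H q))) t.1 v)).trans
        (coeffMap_coeff _ _ _)) V (fun t v hv => hV t.1 t.2 v hv)
  exact h.trans (Submodule.span_mono fun f hf => ⟨hf.1, fun σ hσ => hf.2 ⟨σ, hσ⟩⟩)

end Fermat.BAD.Ord

end
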