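import Fermat.Agent.BAD.Ord.Frobenius
import Fermat.Agent.BAD.X0.LevelChange
import Fermat.Agent.BAD.XC.Transfer

/-!
# Raising the level away from `q`

A map of levels `Γ_H'(M') ≤ Γ_H(M)` commuting with the Atkin-Lehner operators and the norms to
the levels prime to `q` (see `BAD/XH/Setup`) maps classes with vanishing pushforwards to such
classes.
-/

set_option autoImplicit false

noncomputable section

open AlgebraicCurve

namespace Fermat.BAD.Ord

open Fermat.FF Fermat.MC Fermat.JAC Fermat.JAC.XH Fermat.BAD.XH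

local notation "Qb" => AlgebraicClosure ℚ

section Abstract

variable {L F F' F₀ F₀' : Type*} [Field L] [IsAlgClosed L] [Field F] [Field F'] [Field F₀]
  [Field F₀'] [Algebra L F] [Algebra L F'] [Algebra L F₀] [Algebra L F₀']
  [IsFunctionField L F] [IsFunctionField L F'] [IsFunctionField L F₀] [IsFunctionField L F₀']

/-- If a map commutes with the norms, it maps killed classes with vanishing pushforward to such
classes. -/
theorem pushPic_pullPic_eq_zero {α : F₀ →ₐ[L] F} {α' : F₀' →ₐ[L] F'} {i : F →ₐ[L] F'}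
    {i₀ : F₀ →ₐ[L] F₀'} (hN : ∀ y, normAlong α' (i y) = i₀ (normAlong α y))
    {n : ℕ} (hn : n ≠ 0) {x : Pic0 L F} (hx : n • x = 0) (h : pushPic α x = 0) :
    pushPic α' (pullPic i x) = 0 := by
  obtain ⟨D, rfl⟩ := Pic0.mk_surjective x
  have hx' : Pic0.mk (n • D) = 0 :=
    (map_nsmul (QuotientAddGroup.mk' _) n D).trans hx
  rw [pic0_mk_eq_zero_iff] at hx'
  obtain ⟨y, hy, hyD⟩ := hx'
  have hdiv : divOf L y = n • (D : Divisor L F) := hyD.trans (AddSubgroup.coe_nsmul _ _ _)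
  obtain ⟨W, hW⟩ := AtP.exists_root_normAlong α hn h hy hdiv
  have hW0 : W ≠ 0 := fun e => normAlong_ne_zero α hy (by rw [← hW, e, zero_pow hn])
  have h1 : pullDiv i (D : Divisor L F) ∈ Divisor.degZero (K := L) (F := F') := by
    rw [Divisor.mem_degZero, degree_pullDiv, Divisor.mem_degZero.mp D.2, mul_zero]
  have h2 : pushDiv α' (pullDiv i (D : Divisor L F)) ∈ Divisor.degZero (K := L) (F := F₀') := by
    rw [Divisor.mem_degZero, degree_pushDiv, Divisor.mem_degZero.mp h1]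
  rw [pullPic_mk i D h1]
  refine (pushPic_mk α' ⟨_, h1⟩ h2).trans ((pic0_mk_eq_zero_iff (D := ⟨_, h2⟩)).mpr ?_)
  refine ⟨i₀ W, (map_ne_zero i₀).mpr hW0,
    smul_right_injective (Divisor L F₀') hn ?_⟩
  change n • divOf L (i₀ W) = n • pushDiv α' (pullDiv i (D : Divisor L F))
  rw [← map_nsmul, ← map_nsmul, ← hdiv, pullDiv_divOf,
    pushDiv_divOf α' (g := i y) ((map_ne_zero i).mpr hy), hN, ← hW, map_pow,
    JAC.divOf_pow (f := i₀ W)]

end Abstract

variable {M M' q : ℕ} [NeZero M] [NeZero M'] [NeZero q] [Fact q.Prime]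
  {H : Subgroup (ZMod M)ˣ} [Lvl.NegMem H] {H' : Subgroup (ZMod M')ˣ} [Lvl.NegMem H']
  (hqM : ¬ q ∣ M) (hqM' : ¬ q ∣ M')
  (h₀ : Lvl.GammaH M' H' ≤ Lvl.GammaH M H)
  (h₁ : Lvl.GammaH (M' * q) (upH M' H' q) ≤ Lvl.GammaH (M * q) (upH M H q))

include hqM hqM' h₀ in
/-- **Classes with vanishing pushforwards are mapped to such classes.** -/
theorem pushes_pullPic [FF.IsFunctionField Qb (FU M q H)] [FF.IsFunctionField Qb (FH M H)]
    [FF.IsFunctionField Qb (FU M' q H')] [FF.IsFunctionField Qb (FH M' H')]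
    {n : ℕ} (hn : n ≠ 0) {x : Pic0 Qb (FU M q H)} (hx : n • x = 0)
    (hal : pushPic (al M q H) x = 0) (hbe : pushPic (be M q H) x = 0) :
    pushPic (al M' q H') (pullPic (inclFL Qb h₁) x) = 0 ∧
      pushPic (be M' q H') (pullPic (inclFL Qb h₁) x) = 0 := by
  have h : ∀ {z : Pic0 Qb (FU M q H)}, n • z = 0 → pushPic (al M q H) z = 0 →
      pushPic (al M' q H') (pullPic (inclFL Qb h₁) z) = 0 := fun {z} hz hz' =>
    pushPic_pullPic_eq_zero (i := inclFL Qb h₁) (i₀ := inclFL Qb h₀)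
      (normAlong_incl Fact.out hqM h₁ h₀ hqM') hn hz hz'
  refine ⟨h hx hal, ?_⟩
  rw [← pushPic_al_atkinAut_inv M' q H' Fact.out hqM',
    ← pullPic_smul (φ := inclFL Qb h₁) (ψ := inclFL Qb h₁)
    (s := (atkinAut M q H Fact.out hqM)⁻¹) (fun f => ?_) x]
  · refine h ?_ (by rw [pushPic_al_atkinAut_inv]; exact hbe)
    have := map_nsmul (DistribSMul.toAddMonoidHom (Pic0 Qb (FU M q H))
      (atkinAut M q H Fact.out hqM)⁻¹) n x
    rw [hx, map_zero] at this
    exact this.symm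
  · rw [atkinAut_inv_smul, atkinAut_inv_smul, AlgEquiv.symm_apply_eq,
      incl_atkin Fact.out hqM h₁ h₀ hqM', AlgEquiv.apply_symm_apply]

end Fermat.BAD.Ord

end
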