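import Fermat.Agent.BAD.Engine.Mul
import Fermat.Agent.BAD.Mono.Bound
import Fermat.Agent.BAD.XH.Count

/-!
# Every glued point has order twelve

Without elliptic points the number of glued points is at most `(q - 1) ψ_H (M) / 12`, `ψ_H (M)`
being the index `psiG (GammaH M H)`, because the functions with bounded poles reduce injectively to
glued pairs; as the total order of `hbar` is `(q - 1) ψ_H (M)` and no order exceeds `12`, all of
them are `12`.
-/

set_option autoImplicit false
set_option linter.unusedSectionVars false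

noncomputable section

open AlgebraicCurve

namespace Fermat.BAD.Ord

-- both lead to searches that take seconds to fail on subfields of Laurent series
attribute [-instance] IsLocalRing.ResidueField.algebraOfIsIntegral IntermediateField.algebra'

open Fermat.FF Fermat.MC Fermat.BAD.XH

local notation "Qb" => AlgebraicClosure ℚ

variable (M q : ℕ) [NeZero M] [NeZero q] [Fact q.Prime] (H : Subgroup (ZMod M)ˣ) [Lvl.NegMem H]
  (hq : q.Prime) (hqM : ¬ q ∣ M)
variable [FF.IsFunctionField Qb (FU M q H)] [FF.IsFunctionField Qb (FH M H)]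
variable {A : ValuationSubring (AlgebraicClosure ℚ)} (hA : A.LiesOverPrime q)
  [IsAlgClosed (IsLocalRing.ResidueField A)] [CharP (IsLocalRing.ResidueField A) q]
  [FF.IsFunctionField (IsLocalRing.ResidueField A) (KH M H A)]

local notation "kA" => IsLocalRing.ResidueField A

variable (X : Degen (IsLocalRing.residue A) (emb M q H hq hqM)
  (KH M H A))

/-- There are glued points. -/
theorem SS_nonempty : (SS M q H hq hqM hA).Nonempty := by
  obtain ⟨hdeg, hsub⟩ := degree_zeroDiv_hbar M q H hq hqM hA
  by_contra he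
  have h0 : zeroDiv kA (hbar M q H hq hqM hA) = 0 := by
    ext v
    rw [zeroDiv_apply, Finsupp.coe_zero, Pi.zero_apply]
    refine max_eq_right ?_
    by_contra hv
    exact he ⟨v, hsub v (by omega)⟩
  rw [h0, map_zero, eq_comm, Nat.cast_eq_zero, mul_eq_zero] at hdeg
  rcases hdeg with h | h
  · have := hq.two_le
    omega
  · exact (Lvl.psiG_pos (Lvl.GammaH M H)).ne' h

/-- **The order at each glued point is twelve.** -/
theorem ord_hbar_eq (hS : X.S = SS M q H hq hqM hA) (hν2 : Lvl.nuTwoG (Lvl.GammaH M H) = 0)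
    (hν3 : Lvl.nuThreeG (Lvl.GammaH M H) = 0) {s : Place kA (KH M H A)}
    (hs : s ∈ SS M q H hq hqM hA) : s.ord (hbar M q H hq hqM hA) = 12 := by
  classical
  obtain ⟨hdeg, hsub⟩ := degree_zeroDiv_hbar M q H hq hqM hA
  have h0 := X.card_S_add_genus_le
  rw [hS] at h0
  set S := SS M q H hq hqM hA
  have h0' : (S.card : ℚ) + 2 * (genusFF kA (KH M H A) : ℚ) ≤
      (genusFF Qb (FU M q H) : ℚ) + 1 := by exact_mod_cast h0
  have hg := genus_compare M q H hq hqM hA hν2 hν3
  have hcard : 12 * (S.card : ℤ) ≤ ((q - 1) * Lvl.psiG (Lvl.GammaH M H) : ℕ) := by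
    have : (12 : ℚ) * (S.card : ℚ) ≤ (((q - 1) * Lvl.psiG (Lvl.GammaH M H) : ℕ) : ℚ) := by
      linarith
    exact_mod_cast this
  have hsum : Divisor.degree (zeroDiv kA (hbar M q H hq hqM hA)) =
      ∑ v ∈ S, v.ord (hbar M q H hq hqM hA) := by
    rw [Fermat.BAD.degree_eq_sum _ S (fun v hv => hsub v (by
      simp only [Finsupp.mem_support_iff, zeroDiv_apply] at hv
      omega))]
    refine Finset.sum_congr rfl fun v hv => ?_
    rw [zeroDiv_apply, max_eq_left ((mem_SS M q H hq hqM hA).mp hv).2.le]
  by_contra hne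
  have hlt : ∑ v ∈ S, v.ord (hbar M q H hq hqM hA) < ∑ _v ∈ S, (12 : ℤ) :=
    Finset.sum_lt_sum (fun v hv => ord_hbar_le M q H hq hqM hA hv)
      ⟨s, hs, lt_of_le_of_ne (ord_hbar_le M q H hq hqM hA hs) hne⟩
  rw [Finset.sum_const, nsmul_eq_mul, ← hsum, hdeg] at hlt
  linarith

end Fermat.BAD.Ord

end
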