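import Fermat.Agent.BAD.Ord.Pairs
import Fermat.Agent.BAD.Ord.Order
import Fermat.Agent.BAD.Inst.Node

/-!
# Rational functions of every scale at the glued points

A rational integral function vanishing at the component at `0` and vanishing exactly once at a
given supersingular point, and the unit of level `q`, give for every `i` a rational `U` with
`U` of order `-i` on one component and `q ^ i U` of order `i` on the other one.

The argument is that of `Inst/Node`, now at level `Γ_H(M q)`.
-/

set_option autoImplicit false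
set_option linter.unusedSectionVars false

attribute [local instance 10000] SubalgebraClass.toAlgebra HahnSeries.powerSeriesAlgebra

noncomputable section

open ModularCurve AlgebraicCurve

namespace Fermat.BAD.Ord

open Fermat.FF Fermat.MC Fermat.RED Fermat.BAD.XH

local notation "Qb" => AlgebraicClosure ℚ
local notation "Γℚ" => (AlgebraicClosure ℚ ≃ₐ[ℚ] AlgebraicClosure ℚ)

variable (M q : ℕ) [NeZero M] [NeZero q] [Fact q.Prime] (H : Subgroup (ZMod M)ˣ) [Lvl.NegMem H]
  (hq : q.Prime) (hqM : ¬ q ∣ M)
variable [FF.IsFunctionField Qb (FU M q H)] [FF.IsFunctionField Qb (FH M H)]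
variable {A : ValuationSubring (AlgebraicClosure ℚ)} (hA : A.LiesOverPrime q)
  [IsAlgClosed (IsLocalRing.ResidueField A)] [CharP (IsLocalRing.ResidueField A) q]
  [FF.IsFunctionField (IsLocalRing.ResidueField A) (KH M H A)]

local notation "kA" => IsLocalRing.ResidueField A

variable (X : Degen (IsLocalRing.residue A) (emb M q H hq hqM)
  (KH M H A))

/-- The residual unit has the same order at a point and at its Frobenius partner. -/
theorem ord_Qf_hbar (s : Place kA (KH M H A)) :
    (Qf M q H hq hA s).ord (hbar M q H hq hqM hA) = s.ord (hbar M q H hq hqM hA) := by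
  have h : frobAut M q H hq hA • hbar M q H hq hqM hA = hbar M q H hq hqM hA := by
    refine Subtype.ext ((coe_frobAut_smul M q H hq hA _).trans ?_)
    change coeffMap (frobenius kA q) (X0.hSer kA q) = X0.hSer kA q
    rw [X0.hSer, map_mul, coeffMap_qExpand, coeffMap_deltaSeries, coeffMap_deltaSeriesInv]
  conv_lhs => rw [← X0.inv_smul_fixed _ h]
  exact SemilinearAut.ord_smul _ _ _

/-- A function regular away from the cusps has bounded poles. -/
theorem exists_mem_rr_A0 {f : FU M q H} (hf : f ∈ intClosure Qb (aj M q H)) :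
    ∃ c : ℕ, f ∈ riemannRochSpace (c • A0 M q H) := by
  obtain ⟨c, hc⟩ := X0.exists_mem_riemannRochSpace_of_intClosure hf
  refine ⟨c, riemannRochSpace_mono (smul_le_smul_of_nonneg_left ?_ (Nat.zero_le c)) hc⟩
  exact le_add_of_nonneg_right fun v => by simp [poleDiv_apply]

/-- The unit divided by `q ^ 12`. -/
def u12 : FU M q H := ((q : Qb) ^ 12)⁻¹ • un M q H

/-- The integral expansion at `∞` of the normalised unit. -/
theorem emb_true_u12 : emb M q H hq hqM true (u12 M q H) =
    coeffMap A.subtype (qExpand A q (deltaSeries A) * deltaSeriesInv A) := by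
  rw [u12, X0.emb_smul (emb_algebraMap M q H hq hqM true), emb_true_un, map_mul, coeffMap_qExpand,
    coeffMap_deltaSeries, coeffMap_deltaSeriesInv,
    show (q : LaurentSeries Qb) ^ 12 = algebraMap Qb (LaurentSeries Qb) ((q : Qb) ^ 12) by
      rw [map_pow, map_natCast], ← mul_assoc, ← mul_assoc, ← map_mul,
    inv_mul_cancel₀ (pow_ne_zero _ (Nat.cast_ne_zero.mpr hq.ne_zero)), map_one, one_mul]

/-- The integral expansion at the other cusp of the unit. -/
theorem emb_false_un_int : emb M q H hq hqM false (un M q H) =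
    coeffMap A.subtype (X0.hSer A q) := by
  rw [emb_false_un, X0.coeffMap_subtype_hSer]

/-- The unit reduces to `hbar` on one component. -/
theorem red_false_un : X.red false (un M q H) = hbar M q H hq hqM hA :=
  Subtype.ext ((X.coe_red_of_coeffMap false (emb_false_un_int M q H hq hqM)).trans
    (X0.coeffMap_residue_hSer q))

/-- The normalised unit reduces to the inverse of `hbar` on the other component. -/
theorem red_true_u12 : X.red true (u12 M q H) = (hbar M q H hq hqM hA)⁻¹ := by
  refine eq_inv_of_mul_eq_one_right (Subtype.ext ?_)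
  rw [MulMemClass.coe_mul, X.coe_red_of_coeffMap true (emb_true_u12 M q H hq hqM), map_mul,
    coeffMap_qExpand, coeffMap_deltaSeries, coeffMap_deltaSeriesInv]
  exact X0.hSer_mul kA q

include hq hqM in
/-- Galois fixes the unit. -/
theorem galAut_un (τ : Γℚ) : galAut M q H τ • un M q H = un M q H := by
  refine (emb M q H hq hqM false).injective ?_
  rw [emb_galAut, emb_false_un, map_mul, coeffMap_qExpand, coeffMap_deltaSeries,
    coeffMap_deltaSeriesInv]

include hq hqM in
/-- Galois fixes the normalised unit. -/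
theorem galAut_u12 (τ : Γℚ) : galAut M q H τ • u12 M q H = u12 M q H := by
  rw [u12, galAut_smul_scalar, galAut_un M q H hq hqM, map_inv₀, map_pow, map_natCast]

/-- Galois fixes the functions with rational integral expansions. -/
theorem galAut_of_ratInt {m : ℕ} {g : FU M q H} (hg : g ∈ X.ratIntOf m) (τ : Γℚ) :
    galAut M q H τ • g = g := by
  refine (emb M q H hq hqM true).injective (HahnSeries.ext (funext fun n => ?_))
  rw [emb_galAut_coeff]
  obtain ⟨a, ha, r, hr⟩ := hg.2 true n
  rw [ha, ← hr, AlgEquiv.commutes]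

variable (hA0 : X.A0 = A0 M q H)
include hA hA0

/-- A rational function vanishing once at a glued point and everywhere on the other component. -/
theorem exists_ratInt_ord_one {s : Place kA (KH M H A)} (hs : s ∈ X.S) :
    ∃ (m : ℕ) (g : FU M q H), g ∈ X.ratIntOf m ∧ X.red false g = 0 ∧
      s.ord (X.red true g) = 1 :=
  X.exists_ratIntOf_ord_one hq hA hs (glueSp_le_span M q H hq hqM hA X hA0 le_rfl)

variable (hS : X.S = SS M q H hq hqM hA) (hQf : ∀ s ∈ X.S, X.Qf s = Qf M q H hq hA s)
  (h12 : ∀ s ∈ SS M q H hq hqM hA, s.ord (hbar M q H hq hqM hA) = 12)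
include hS hQf h12

/-- **The nodes.** For a supersingular point `s` and any `i`, some Galois-invariant function is a
node function of scale `q ^ i` at `s`. -/
theorem node_data {s : Place kA (KH M H A)} (hs : s ∈ X.S) (i : ℤ) :
    ∃ (c : ℕ) (U : FU M q H), X.IsNodeFun (q : Qb) s i c U ∧ ∀ τ : Γℚ, galAut M q H τ • U = U := by
  obtain ⟨m, g, hg, hg0, hgord⟩ := exists_ratInt_ord_one M q H hq hqM hA X hA0 hs
  obtain ⟨cu, hcu⟩ := exists_mem_rr_A0 M q H (un_mem_intClosure M q H hq hqM)
  rw [← hA0] at hcu
  obtain ⟨c, U, hU, h6⟩ := X.node_data_of_unit hq hA (u' := u12 M q H) hs hg hg0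
    hgord rfl hcu ⟨_, (emb_true_u12 M q H hq hqM).symm⟩ ⟨_, (emb_false_un_int M q H hq hqM).symm⟩
    (red_true_u12 M q H hq hqM hA X) (red_false_un M q H hq hqM hA X) (hbar_ne_zero M q H hq hqM hA)
      (h12 s (hS ▸ hs))
    (by rw [hQf s hs, ord_Qf_hbar, h12 s (hS ▸ hs)]) i
  exact ⟨c, U, hU, fun τ =>
    h6 _ (galAut_of_ratInt M q H hq hqM X hg τ) (galAut_u12 M q H hq hqM τ)⟩

/-- The model has nodes of thickness `q` at the glued points. -/
theorem node : X.Node (q : Qb) := fun v hv i => by
  obtain ⟨c, U, hU, -⟩ := node_data M q H hq hqM hA X hA0 hS hQf h12 hv i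
  exact ⟨c, U, hU⟩

end Fermat.BAD.Ord

end
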