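import Fermat.Agent.BAD.XH.Degen

/-!
# The square of the Atkin-Lehner operator and integral regular functions

It preserves the regular functions with integral expansions; having finite order, it does not
kill their reduction on the component at `∞`.
-/

set_option autoImplicit false
set_option linter.unusedSectionVars false

attribute [local instance 10000] SubalgebraClass.toAlgebra HahnSeries.powerSeriesAlgebra

noncomputable section

open ModularCurve

namespace Fermat.BAD.Ord

open Fermat.FF Fermat.MC Fermat.JAC Fermat.RED Fermat.RED.Model Fermat.BAD.XH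

local notation "Qb" => AlgebraicClosure ℚ

variable (M q : ℕ) [NeZero M] [NeZero q] (H : Subgroup (ZMod M)ˣ) [Lvl.NegMem H]
variable (hq : q.Prime) (hqM : ¬ q ∣ M)

variable [Fact q.Prime] [FF.IsFunctionField Qb (FU M q H)]
variable {A : ValuationSubring (AlgebraicClosure ℚ)} (hA : A.LiesOverPrime q)
include hA

/-- The powers of the square of the Atkin-Lehner operator keep regular integral functions. -/
theorem sqW_pow_int (k : ℕ) {f : FU M q H} (hf : f ∈ intClosure Qb (aj M q H))
    (hi : ∀ b, emb M q H hq hqM b f ∈ intSeries A) :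
    (sqW M q H hq hqM ^ k) f ∈ intClosure Qb (aj M q H) ∧
      ∀ b, emb M q H hq hqM b ((sqW M q H hq hqM ^ k) f) ∈ intSeries A := by
  induction k with
  | zero => exact ⟨hf, hi⟩
  | succ k ih =>
    rw [pow_succ', AlgEquiv.mul_apply]
    exact ⟨sqW_mem_intClosure M q H hq hqM ih.1, sqW_int M q H hq hqM hA ih.1 ih.2⟩

omit hA in
/-- A constant times a series reduces to zero if either does. -/
theorem red_C_mul {a : A} {y : LaurentSeries A}
    (h : IsLocalRing.residue A a = 0 ∨ coeffMap (IsLocalRing.residue A) y = 0) :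
    coeffMap (IsLocalRing.residue A) (HahnSeries.C a * y) = 0 := by
  rw [map_mul, HahnSeries.C_apply, coeffMap_single]
  rcases h with h | h
  · rw [h, map_zero, zero_mul]
  · rw [h, mul_zero]

/-- A function which is regular, nonzero and small at both components is a small scalar times a
regular function with integral expansions. -/
theorem exists_eq_small_smul {g : FU M q H} (hg : g ∈ intClosure Qb (aj M q H)) (hg0 : g ≠ 0)
    (hs : ∀ b, ∃ y : LaurentSeries A, coeffMap A.subtype y = emb M q H hq hqM b g ∧
      coeffMap (IsLocalRing.residue A) y = 0) :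
    ∃ (c : A) (h : FU M q H), IsLocalRing.residue A c = 0 ∧
      h ∈ intClosure Qb (aj M q H) ∧ (∀ b, emb M q H hq hqM b h ∈ intSeries A) ∧
        g = (c : Qb) • h := by
  choose y hy hy0 using hs
  have hi : ∀ b, emb M q H hq hqM b g ∈ intSeries A := fun b => ⟨y b, hy b⟩
  choose a ha hne using fun b => attained M q H hq hqM hA b g hg0 (hi b)
  have ha0 : ∀ b, a b ≠ 0 := fun b h => hne b (by rw [h, zero_smul, redF_zero])
  have hnA : ∀ b, a b ∉ A := fun b h => hne b (by
    rw [redF_of_mem (ha b), ← red_C_mul (a := (⟨a b, h⟩ : A)) (Or.inr (hy0 b)),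
      ← redHom_coeffMap (IsLocalRing.residue A) (HahnSeries.C (⟨a b, h⟩ : A) * y b) ⟨_, rfl⟩]
    refine congrArg _ (Subtype.ext ?_)
    change emb M q H hq hqM b (a b • g) = coeffMap A.subtype (HahnSeries.C (⟨a b, h⟩ : A) * y b)
    rw [map_mul, hy, HahnSeries.C_apply, coeffMap_single,
      X0.emb_smul (emb_algebraMap M q H hq hqM b), algebraMap_laurentSeries_eq_single]
    rfl)
  have hinv : ∀ b, (a b)⁻¹ ∈ A := fun b => (A.mem_or_inv_mem _).resolve_left (hnA b)
  obtain ⟨b₀, hb₀⟩ : ∃ b₀, ∀ b, (a b)⁻¹ / (a b₀)⁻¹ ∈ A := by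
    rcases A.mem_or_inv_mem ((a true)⁻¹ / (a false)⁻¹) with h | h
    · exact ⟨false, fun b => by cases b; exacts [by simp [div_self (inv_ne_zero (ha0 false))], h]⟩
    · rw [inv_div] at h
      exact ⟨true, fun b => by cases b; exacts [h, by simp [div_self (inv_ne_zero (ha0 true))]]⟩
  refine ⟨⟨_, hinv b₀⟩, a b₀ • g, map_eq_zero_of_inv_notMem IsLocalRing.residue_surjective
    (a := ⟨_, hinv b₀⟩) (by simpa using hnA b₀), ?_, fun b => ?_, ?_⟩
  · rw [Algebra.smul_def]
    exact mul_mem ((intClosure Qb (aj M q H)).algebraMap_mem _) hg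
  · rw [show a b₀ • g = ((a b)⁻¹ / (a b₀)⁻¹) • (a b • g) by
      rw [smul_smul, div_inv_eq_mul, mul_comm (a b)⁻¹ (a b₀), mul_assoc,
        inv_mul_cancel₀ (ha0 b), mul_one],
      X0.emb_smul (emb_algebraMap M q H hq hqM b)]
    exact mul_mem (algebraMap_mem_intSeries (hb₀ b)) (ha b)
  · change g = (a b₀)⁻¹ • a b₀ • g
    rw [inv_smul_smul₀ (ha0 b₀)]

/-- **The reduction at `∞` is not killed.** -/
theorem sqW_red_ne {f : FU M q H} (hf : f ∈ intClosure Qb (aj M q H))
    (hi : ∀ b, emb M q H hq hqM b f ∈ intSeries A)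
    (hne : redF (IsLocalRing.residue A) (emb M q H hq hqM true) f ≠ 0) :
    redF (IsLocalRing.residue A) (emb M q H hq hqM true) (sqW M q H hq hqM f) ≠ 0 := by
  intro h0
  have := charP_residue hq hA
  set s := separator M q H
  have hsi := separator_int M q H hq hqM (A := A)
  -- the separator is fixed by `sqW` and has zero reduction on the second branch
  have hsW : sqW M q H hq hqM s = s := by
    rw [show s = aj M q H - bj M q H ^ q from rfl, map_sub, map_pow, sqW_aj, sqW_bj]
  have hsf : redF (IsLocalRing.residue A) (emb M q H hq hqM false) s = 0 := by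
    obtain ⟨w, hw⟩ := X0.exists_qExpand_jqModC_sub_pow q A
    rw [redF_of_mem (hsi false),
      ← redHom_coeffMap (IsLocalRing.residue A) ((q : LaurentSeries A) * w) ⟨_, rfl⟩ |>.trans
        (show coeffMap (IsLocalRing.residue A) ((q : LaurentSeries A) * w) = 0 by
          rw [map_mul, map_natCast, ← map_natCast (algebraMap (IsLocalRing.ResidueField A)
            (LaurentSeries (IsLocalRing.ResidueField A))), CharP.cast_eq_zero, map_zero, zero_mul])]
    refine congrArg _ (Subtype.ext ?_)
    change emb M q H hq hqM false s = coeffMap A.subtype ((q : LaurentSeries A) * w)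
    rw [emb_false_separator]
    have := congrArg (coeffMap A.subtype) hw
    simpa only [map_sub, map_pow, map_mul, map_natCast, ModularCurve.coeffMap_qExpand,
      coeffMap_subtype_jqModC] using this
  have hfs : ∀ b, emb M q H hq hqM b (f * s) ∈ intSeries A := fun b => by
    rw [map_mul]; exact mul_mem (hi b) (hsi b)
  have hfsm : f * s ∈ intClosure Qb (aj M q H) := mul_mem hf
    (sub_mem (FF.self_mem_intClosure _) (pow_mem (bj_mem_intClosure M q H hq hqM) q))
  set g := sqW M q H hq hqM (f * s)
  have hg := sqW_pow_int M q H hq hqM hA 1 hfsm hfs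
  rw [pow_one] at hg
  have hgW := sqW_int M q H hq hqM hA hf hi
  -- otherwise the image of `f * s` has zero reduction on both branches
  have hgr : ∀ b, redF (IsLocalRing.residue A) (emb M q H hq hqM b) g = 0 := fun b => by
    simp only [g, map_mul, hsW]
    rw [redF_mul (hgW b) (hsi b)]
    cases b
    · rw [hsf, mul_zero]
    · rw [h0, zero_mul]
  have hf0 : f ≠ 0 := fun e => hne (by rw [e, redF_zero])
  have hs0 : s ≠ 0 := fun e => redF_separator_ne M q H hq hqM (A := A) (by
    change redF _ _ s = 0; rw [e, redF_zero])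
  -- hence it is a small multiple of an integral function; pull this back by a power of `sqW`
  obtain ⟨c, h, hc, hh, hhi, hgh⟩ := exists_eq_small_smul M q H hq hqM hA hg.1
    ((map_ne_zero_iff _ (sqW M q H hq hqM).injective).mpr (mul_ne_zero hf0 hs0)) fun b => by
      obtain ⟨y, hy⟩ := id (hg.2 b)
      refine ⟨y, hy, ?_⟩
      rw [← redHom_coeffMap (IsLocalRing.residue A) y ⟨y, rfl⟩, ← hgr b, redF_of_mem (hg.2 b)]
      exact congrArg _ (Subtype.ext hy)
  obtain ⟨k, hk⟩ : ∃ k : ℕ, sqW M q H hq hqM ^ (k + 1) = 1 :=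
    ⟨ordQ M - 1, by rw [Nat.sub_add_cancel Fintype.card_pos, sqW_pow_ordQ]⟩
  have h1 : f * s = (c : Qb) • (sqW M q H hq hqM ^ k) h := by
    rw [Algebra.smul_def,
      ← AlgEquiv.commutes (sqW M q H hq hqM ^ k) ((c : Qb)), ← map_mul, ← Algebra.smul_def, ← hgh]
    show f * s = (sqW M q H hq hqM ^ k) (sqW M q H hq hqM (f * s))
    rw [← AlgEquiv.mul_apply, ← pow_succ, hk, AlgEquiv.one_apply]
  -- so `f * s` reduces to zero at `∞`, though neither factor does
  have h2 : redF (IsLocalRing.residue A) (emb M q H hq hqM true) (f * s) = 0 := by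
    obtain ⟨y, hy⟩ := id ((sqW_pow_int M q H hq hqM hA k hh hhi).2 true)
    rw [redF_of_mem (hfs true), ← red_C_mul (y := y) (Or.inl hc),
      ← redHom_coeffMap (IsLocalRing.residue A) (HahnSeries.C c * y) ⟨_, rfl⟩]
    refine congrArg _ (Subtype.ext ?_)
    change emb M q H hq hqM true (f * s) = coeffMap A.subtype (HahnSeries.C c * y)
    rw [h1, map_mul (coeffMap A.subtype), hy, HahnSeries.C_apply, coeffMap_single,
      X0.emb_smul (emb_algebraMap M q H hq hqM true), algebraMap_laurentSeries_eq_single]
    rfl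
  rw [redF_mul (hi true) (hsi true), mul_eq_zero] at h2
  exact h2.elim hne (redF_separator_ne M q H hq hqM)

end Fermat.BAD.Ord

end
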