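import Fermat.Agent.BAD.Ord.Node
import Fermat.Agent.BAD.Ord.SqW
import Fermat.Agent.BAD.Inst.Norm
import Fermat.Agent.BAD.Wit.Push
import Fermat.Agent.BAD.AtP.Powers
import Fermat.Agent.RED.Congruence.Norm

/-!
# The norms to level `M`

The norms along the two degeneracy maps as `NormData`: the expansion of a norm is that at one
cusp times the product of the conjugate branches of the other, which has coefficients in `F.M`
and reduces to a `q`-th power.

The argument is that of `Inst/Norm`, now at level `Γ_H(M q)`.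
-/

set_option autoImplicit false
set_option linter.unusedSectionVars false

attribute [local instance 10000] SubalgebraClass.toAlgebra HahnSeries.powerSeriesAlgebra

noncomputable section

open ModularCurve AlgebraicCurve

namespace Fermat.BAD.Ord

open Fermat.FF Fermat.MC Fermat.JAC Fermat.RED Fermat.RED.Model Fermat.BAD.XH

local notation "Qb" => AlgebraicClosure ℚ
local notation "Γℚ" => (AlgebraicClosure ℚ ≃ₐ[ℚ] AlgebraicClosure ℚ)

variable (M q : ℕ) [NeZero M] [NeZero q] [Fact q.Prime] (H : Subgroup (ZMod M)ˣ) [Lvl.NegMem H]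
  (hq : q.Prime) (hqM : ¬ q ∣ M)
variable [FF.IsFunctionField Qb (FU M q H)] [FF.IsFunctionField Qb (FH M H)]
variable {A : ValuationSubring (AlgebraicClosure ℚ)} (hA : A.LiesOverPrime q)
  [IsAlgClosed (IsLocalRing.ResidueField A)] [CharP (IsLocalRing.ResidueField A) q]
  [FF.IsFunctionField (IsLocalRing.ResidueField A) (KH M H A)]
variable {rb : Γℚ →* GL (Fin 2) (ZMod q)} {a₀ : ℕ} (F : AtP.LocalField q A rb a₀)

local notation "kA" => IsLocalRing.ResidueField A

variable (X : Degen (IsLocalRing.residue A) (emb M q H hq hqM)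
  (KH M H A))

/-- The component moved to `∞`. -/
def toInf : Bool → (FU M q H ≃ₐ[Qb] FU M q H)
  | true => AlgEquiv.refl
  | false => atkin M q H hq hqM

/-- The other expansion entering a norm. -/
def othHom : Bool → FU M q H →+* LaurentSeries Qb
  | true => emb M q H hq hqM false
  | false => (emb M q H hq hqM true).comp (sqW M q H hq hqM).toAlgHom.toRingHom

/-- After moving component `b` to `∞` the two expansions are that at `b` and the other one. -/
theorem emb_toInf (b : Bool) (f : FU M q H) :
    emb M q H hq hqM true (toInf M q H hq hqM b f) = emb M q H hq hqM b f ∧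
      emb M q H hq hqM false (toInf M q H hq hqM b f) = othHom M q H hq hqM b f := by
  cases b <;> exact ⟨rfl, rfl⟩

/-- The other expansion of a constant is the constant. -/
theorem othHom_algebraMap (b : Bool) (c : Qb) :
    othHom M q H hq hqM b (algebraMap Qb (FU M q H) c) = algebraMap Qb (LaurentSeries Qb) c := by
  cases b
  · change emb M q H hq hqM true (sqW M q H hq hqM (algebraMap Qb (FU M q H) c)) = _
    rw [AlgEquiv.commutes, emb_algebraMap]
  · exact emb_algebraMap M q H hq hqM false c

/-- The two norms as norms along `α`. -/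
def degN (b : Bool) : FU M q H →* FH M H :=
  (normAlong (al M q H)).comp (toInf M q H hq hqM b).toAlgHom.toRingHom.toMonoidHom

/-- `degN` is the norm along `α` after moving to `∞`. -/
theorem degN_apply (b : Bool) (f : FU M q H) :
    degN M q H hq hqM b f = normAlong (al M q H) (toInf M q H hq hqM b f) := rfl

/-- The norm along `β` up to a diamond. -/
theorem degN_false (f : FU M q H) :
    degN M q H hq hqM false f = dq M q H hq hqM (normAlong (be M q H) f) := by
  have h : (atkin M q H hq hqM).toAlgHom.comp (al M q H) = be M q H :=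
    AlgHom.ext fun x => atkin_al M q H hq hqM x
  rw [degN_apply, ← h, Inst.normAlong_comp_algEquiv, ← normAlong_sqW M q H hq hqM, sqW_apply,
    AlgEquiv.apply_symm_apply]
  rfl

/-- The product of the conjugates of the expansion at the other component. -/
def tprod (b : Bool) (f : FU M q H) : LaurentSeries Qb :=
  ∏ i : Fin q, twist (Inst.zetaU q F ^ (i : ℕ)) (othHom M q H hq hqM b f)

/-- The other factor of the norm. -/
def psiN (b : Bool) : FU M q H →* LaurentSeries Qb where
  toFun f := ((degN M q H hq hqM b f : FH M H) : LaurentSeries Qb) / emb M q H hq hqM b f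
  map_one' := by rw [map_one, map_one]; simp
  map_mul' f g := by rw [map_mul, map_mul, MulMemClass.coe_mul, mul_div_mul_comm]

/-- A norm, dilated, is the expansion times the product of conjugates. -/
theorem qExpand_normAlong (b : Bool) (f : FU M q H) :
    qExpand Qb q ((degN M q H hq hqM b f : FH M H) : LaurentSeries Qb) =
      qExpand Qb q (emb M q H hq hqM b f) * tprod M q H hq hqM F b f := by
  rw [degN_apply, qExpand_norm M q H hq hqM (Inst.zetaU_prim q F), (emb_toInf M q H hq hqM b f).1,
    (emb_toInf M q H hq hqM b f).2, tprod]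

/-- The other factor, dilated, is the product of conjugates. -/
theorem qExpand_psiN (b : Bool) (f : FU M q H) :
    qExpand Qb q (psiN M q H hq hqM b f) = tprod M q H hq hqM F b f := by
  change qExpand Qb q (_ / _) = _
  rw [map_div₀, qExpand_normAlong M q H hq hqM F]
  rcases eq_or_ne f 0 with rfl | hf
  · rw [map_zero, map_zero, zero_mul, zero_div, tprod, map_zero]
    simp only [map_zero]
    exact (Finset.prod_eq_zero (Finset.mem_univ (⟨0, hq.pos⟩ : Fin q)) rfl).symm
  · exact mul_div_cancel_left₀ _ ((map_ne_zero_iff _ (qExpand_injective q)).mpr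
      ((map_ne_zero_iff _ (emb M q H hq hqM b).injective).mpr hf))

/-- A norm is the expansion times the other factor. -/
theorem expand (b : Bool) (f : FU M q H) :
    ((degN M q H hq hqM b f : FH M H) : LaurentSeries Qb) =
      emb M q H hq hqM b f * psiN M q H hq hqM b f := by
  rcases eq_or_ne f 0 with rfl | hf
  · obtain ⟨ζ, hζ⟩ := X0.exists_zeta q
    refine qExpand_injective q ?_
    rw [degN_apply, qExpand_norm M q H hq hqM hζ]
    simp only [map_zero, zero_mul]
  · exact (mul_div_cancel₀ _ ((map_ne_zero_iff _ (emb M q H hq hqM b).injective).mpr hf)).symm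

/-- The other expansion of a rational function has coefficients in `F.M`. -/
theorem othHom_coeff (b : Bool) {f : FU M q H} (hf : (ratData M q H hq hqM F).RC f) (n : ℤ) :
    (othHom M q H hq hqM b f).coeff n ∈ F.M := by
  cases b
  · have h := (mem_ratFns_iff_fixed M q H hq hqM F).mp ((rc_iff M q H hq hqM F).mp hf)
    have h2 : sqW M q H hq hqM f ∈ ratFns M q H hq hqM F :=
      (mem_ratFns_iff_fixed M q H hq hqM F).mpr fun τ hτ => by
        rw [sqW_apply, ← galAut_atkin M q H hq hqM, ← galAut_atkin M q H hq hqM, h τ hτ]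
    exact h2 true n
  · exact hf.coeff (ratData M q H hq hqM F) false n

/-- The other factor of a rational function has coefficients in `F.M`. -/
theorem psiN_rc (b : Bool) {f : FU M q H} (hf : (ratData M q H hq hqM F).RC f) :
    psiN M q H hq hqM b f ∈ (ratData M q H hq hqM F).serM := by
  set R := ratData M q H hq hqM F
  have hz : ((Inst.zetaU q F : Qbˣ) : Qb) ∈ R.M := F.ζ_mem
  have h : tprod M q H hq hqM F b f ∈ R.serM := by
    refine prod_mem fun i _ => R.mem_serM.mpr fun n => ?_
    rw [twist_coeff]
    refine mul_mem ?_ (othHom_coeff M q H hq hqM F b hf n)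
    rw [Units.val_zpow_eq_zpow_val, Units.val_pow_eq_pow_val]
    exact zpow_mem (pow_mem hz _) n
  refine R.mem_serM.mpr fun n => ?_
  rw [← qExpand_coeff_mul q (psiN M q H hq hqM b f) n, qExpand_psiN M q H hq hqM F]
  exact R.mem_serM.mp h _

include F

/-- An integral lift of the product of the conjugates. -/
theorem exists_lift_tprod :
    ∃ uu : Aˣ, Units.map (IsLocalRing.residue A : A →* kA) uu = 1 ∧
      ∀ (b : Bool) (f : FU M q H) (y : LaurentSeries A),
        coeffMap A.subtype y = othHom M q H hq hqM b f →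
          coeffMap A.subtype (∏ i : Fin q, twist (uu ^ (i : ℕ)) y) = tprod M q H hq hqM F b f := by
  obtain ⟨uu, hmap, hπ⟩ := X0.exists_unit_root (A := A) (π := IsLocalRing.residue A)
    (Inst.zetaU_prim q F)
  refine ⟨uu, hπ, fun b f y hy => ?_⟩
  rw [map_prod, tprod]
  exact Finset.prod_congr rfl fun i _ => by rw [coeffMap_twist, hmap, hy]

/-- The other factor `psiN f` is integral if the other expansion `y` of `f` is, and its reduction in
`q z` is the `q`-th power of that of `y`. -/
theorem exists_psiN_lift (b : Bool) {f : FU M q H} {y : LaurentSeries A}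
    (hy : coeffMap A.subtype y = othHom M q H hq hqM b f) :
    ∃ w : LaurentSeries A, coeffMap A.subtype w = psiN M q H hq hqM b f ∧
      qExpand kA q (coeffMap (IsLocalRing.residue A) w) =
        coeffMap (IsLocalRing.residue A) y ^ q := by
  obtain ⟨uu, hπ, hl⟩ := exists_lift_tprod M q H hq hqM F
  obtain ⟨w, hw, hw'⟩ := X0.exists_descend (q := q) (z := psiN M q H hq hqM b f)
    (w := ∏ i : Fin q, twist (uu ^ (i : ℕ)) y) (by rw [hl b f y hy, qExpand_psiN M q H hq hqM F])
  refine ⟨w, hw.symm, ?_⟩
  rw [← coeffMap_qExpand, hw', map_prod,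
    Finset.prod_eq_pow_card (b := coeffMap (IsLocalRing.residue A) y) fun i _ => by
      rw [coeffMap_twist, map_pow, hπ, one_pow, twist_one_apply], Finset.card_univ,
        Fintype.card_fin]

variable (hA0 : X.A0 = A0 M q H)
include hA hA0

omit F in
/-- The other expansion of a regular integral function is integral. -/
theorem exists_oth (b : Bool) {f : FU M q H} (hf : f ∈ X.intF)
    (hfm : ∃ m : ℕ, f ∈ riemannRochSpace (m • X.A0)) :
    ∃ y : LaurentSeries A, coeffMap A.subtype y = othHom M q H hq hqM b f ∧
      (X.red (!b) f ≠ 0 → coeffMap (IsLocalRing.residue A) y ≠ 0) := by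
  obtain ⟨m, hm⟩ := hfm
  rw [hA0] at hm
  have hfi : f ∈ intClosure Qb (aj M q H) := mem_intClosure_of_mem_A0 M q H hq hqM hm
  have hi := X.mem_intF.mp hf
  have hred : ∀ c, redF (IsLocalRing.residue A) (emb M q H hq hqM c) f =
      (X.red c f : LaurentSeries kA) := fun c => by
    rw [X.coe_red, gRed_of_int (hi c)]
  cases b
  · obtain ⟨y, hy⟩ := sqW_int M q H hq hqM hA hfi hi true
    refine ⟨y, hy, fun h0 e => ?_⟩
    refine sqW_red_ne M q H hq hqM hA hfi hi (fun e' => h0 (Subtype.ext ?_)) ?_
    · rw [← hred, show (!false) = true from rfl, e']; rfl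
    · rw [redF_of_mem ⟨y, hy⟩, ← e, ← redHom_coeffMap (IsLocalRing.residue A) y ⟨y, rfl⟩]
      exact congrArg _ (Subtype.ext hy.symm)
  · obtain ⟨y, hy⟩ := id (hi false)
    refine ⟨y, hy, fun h0 e => h0 (Subtype.ext ?_)⟩
    rw [show (!true) = false from rfl, ← hred, redF_of_mem (hi false)]
    refine Eq.trans ?_ (e.trans (ZeroMemClass.coe_zero _).symm)
    rw [← redHom_coeffMap (IsLocalRing.residue A) y ⟨y, rfl⟩]
    exact congrArg _ (Subtype.ext hy.symm)

/-- The other factor of an integral function with bounded poles is integral. -/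
theorem psiN_int (b : Bool) {f : FU M q H} (hf : f ∈ X.intF)
    (hfm : ∃ m : ℕ, f ∈ riemannRochSpace (m • X.A0)) :
    psiN M q H hq hqM b f ∈ intSeries A := by
  obtain ⟨y, hy, -⟩ := exists_oth M q H hq hqM hA X hA0 b hf hfm
  obtain ⟨w, hw, -⟩ := exists_psiN_lift M q H hq hqM F b hy
  exact ⟨w, hw⟩

/-- The other factor does not reduce to zero if the other reduction does not. -/
theorem psiN_ne (b : Bool) {f : FU M q H} (hf : f ∈ X.intF)
    (hfm : ∃ m : ℕ, f ∈ riemannRochSpace (m • X.A0)) (h0 : X.red (!b) f ≠ 0) :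
    redS (IsLocalRing.residue A) (psiN M q H hq hqM b f) ≠ 0 := by
  obtain ⟨y, hy, hne⟩ := exists_oth M q H hq hqM hA X hA0 b hf hfm
  obtain ⟨w, hw, hwr⟩ := exists_psiN_lift M q H hq hqM F b hy
  rw [Inst.redS_of_coeffMap hw]
  intro e
  rw [e, map_zero, eq_comm, pow_eq_zero_iff hq.ne_zero] at hwr
  exact hne h0 hwr

/-- A small multiple `c` of an integral function moves the other factor by less than `c`. -/
theorem psiN_move (b : Bool) {x z : FU M q H} (hx : x ∈ X.intF)
    (hxm : ∃ m : ℕ, x ∈ riemannRochSpace (m • X.A0)) (hz : z ∈ X.intF)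
    (hzm : ∃ m : ℕ, z ∈ riemannRochSpace (m • X.A0)) {c : Qb}
    (hc : c ≠ 0) (hcs : Small (IsLocalRing.residue A) c) (n : ℤ) :
    Small (IsLocalRing.residue A)
      ((psiN M q H hq hqM b (x + c • z) - psiN M q H hq hqM b x).coeff n / c) := by
  obtain ⟨yx, hyx, -⟩ := exists_oth M q H hq hqM hA X hA0 b hx hxm
  obtain ⟨yz, hyz, -⟩ := exists_oth M q H hq hqM hA X hA0 b hz hzm
  obtain ⟨uu, hπ, hl⟩ := exists_lift_tprod M q H hq hqM F
  refine Inst.small_coeff_sub_of_prod_twist (uu := uu) (yx := yx) (yz := yz) hπ hc hcs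
    (by rw [qExpand_psiN M q H hq hqM F, hl b _ _ hyx]) ?_ n
  rw [qExpand_psiN M q H hq hqM F, hl b (x + c • z) _ ?_]
  rw [map_add, map_mul, Inst.coeffMap_subtype_C, hyx, hyz, map_add, Algebra.smul_def, map_mul,
    othHom_algebraMap]

omit hA in
/-- If `W ^ n` is the norm to level `M` of a function with bounded poles then `W` has bounded
expansion. -/
theorem normN_bdd (b : Bool) (m : ℕ) (f : FU M q H) (hf : f ∈ riemannRochSpace (m • X.A0))
    (n : ℕ) (hn : n ≠ 0) (W : FH M H) (hW : W ^ n = degN M q H hq hqM b f) :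
    ∃ j : ℕ, algebraMap Qb (LaurentSeries Qb) (F.ρ ^ j) * (W : LaurentSeries Qb) ∈ intSeries A := by
  have hfi : f ∈ intClosure Qb (aj M q H) := mem_intClosure_of_mem_A0 M q H hq hqM (hA0 ▸ hf)
  have hTi : toInf M q H hq hqM b f ∈ intClosure Qb (aj M q H) := by
    cases b
    · exact atkin_mem_intClosure M q H hq hqM hfi
    · exact hfi
  have hN : W ^ n ∈ intClosure Qb (jM M H) := by
    rw [hW, degN_apply]
    exact normAlong_mem_intClosure M q H hTi
  have hWi : W ∈ intClosure Qb (jM M H) :=
    mem_intClosure.mpr (IsIntegral.of_pow (Nat.pos_of_ne_zero hn) (mem_intClosure.mp hN))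
  obtain ⟨e, he⟩ := exists_mem_rr_A0 M q H (X0.map_mem_intClosure (al M q H) hWi)
  rw [← hA0] at he
  obtain ⟨a, ha, hint⟩ := X.bdd true e _ he
  rw [Algebra.smul_def, map_mul, X.ι_algebraMap, emb_true_al] at hint
  exact X.exists_pow_mul_mem_intSeries F.ρ_A F.ρ_small ha hint

/-- **The norm data.** The norm to level `M` along the degeneracy map of the component `b`, as
`NormData`. -/
def normData (b : Bool) : NormData X (ratData M q H hq hqM F) b (FH M H) where
  ι' := (FH M H).val.toRingHom
  const := algebraMap Qb (FH M H)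
  ι'_const _ := rfl
  N := degN M q H hq hqM b
  Ψ := psiN M q H hq hqM b
  expand := expand M q H hq hqM b
  rc f hf := psiN_rc M q H hq hqM F b hf
  int f hf hm := psiN_int M q H hq hqM hA F X hA0 b hf hm
  ne f hf hm h := psiN_ne M q H hq hqM hA F X hA0 b hf hm h
  move x hx hxm z hz hzm c hc hcs n := psiN_move M q H hq hqM hA F X hA0 b hx hxm hz hzm hc hcs n
  red_mem W hW := by
    obtain ⟨y, hy⟩ := id hW
    rw [Inst.redS_of_coeffMap hy]
    exact redF_mem_K M H W y hy.symm
  bdd m f hf n hn W hW := normN_bdd M q H hq hqM F X hA0 b m f hf n hn W hW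

end Fermat.BAD.Ord

end
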