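import Fermat.Agent.BAD.AtP.PhiCore
import Fermat.Agent.BAD.Engine.Sym
import Mathlib.FieldTheory.Perfect
import Mathlib.Algebra.CharP.Reduced

/-!
# Torsion classes whose reduction is a power

In characteristic `p` the property that a class killed by `p ^ i` reduces to a `p ^ i`-th power
does not depend on `i`; these classes form a subgroup, stable under the symmetries.
-/

set_option autoImplicit false

attribute [local instance 10000] SubalgebraClass.toAlgebra HahnSeries.powerSeriesAlgebra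

noncomputable section

open AlgebraicCurve

namespace Fermat.BAD

open Fermat.FF

variable {L : Type*} [Field L] {A : ValuationSubring L}
variable {k : Type*} [Field k] [IsAlgClosed L] [IsAlgClosed k]
variable {F : Type*} [Field F] [Algebra L F]
variable {π : A →+* k} {ι : Bool → F →+* LaurentSeries L}
  {K : IntermediateField k (LaurentSeries k)}
variable [FF.IsFunctionField L F] [FF.IsFunctionField k K]

/-- In characteristic `p`, if `H ^ p ^ j` is a `p ^ (i + j)`-th power then `H` is a `p ^ i`-th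
power. -/
theorem PowEq.one_of_pow {G : Type*} [Field G] {p : ℕ} [Fact p.Prime] [CharP G p] {i j : ℕ}
    {H : G} (h : PowEq (p ^ (i + j)) 1 (H ^ p ^ j)) : PowEq (p ^ i) 1 H := by
  obtain ⟨r, hr, e⟩ := h
  refine ⟨r, hr, iterateFrobenius_inj G p j ?_⟩
  simp only [iterateFrobenius_def, one_mul] at e ⊢
  rw [e, ← pow_mul, ← pow_add]

/-- The `k`-th power of an `n`-th power is an `n k`-th power. -/
theorem PowEq.one_pow {G : Type*} [Field G] {n : ℕ} {H : G} (h : PowEq n 1 H) (k' : ℕ) :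
    PowEq (n * k') 1 (H ^ k') := by
  obtain ⟨r, hr, e⟩ := h
  exact ⟨r, hr, by rw [e, one_mul, one_mul, pow_mul]⟩

/-- If `H H'` is `H'` times an `n`-th power, then `H` is an `n`-th power. -/
theorem PowEq.one_of_mul {G : Type*} [Field G] {n : ℕ} {H H' : G} (hH : H' ≠ 0)
    (h : PowEq n H' (H * H')) : PowEq n 1 H := by
  obtain ⟨r, hr, e⟩ := h
  refine ⟨r, hr, mul_right_cancel₀ hH ?_⟩
  rw [e, one_mul, mul_comm]

namespace Degen

variable {X : Degen π ι K} {n : ℕ} {b : Bool} {x x' : Pic0 L F}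

/-- The class `x`, killed by `n`, reduces at `b` to an `n`-th power. -/
def NullAt (X : Degen π ι K) (n : ℕ) (b : Bool) (x : Pic0 L F) : Prop :=
  n • x = 0 ∧ ∀ D y c, X.Rep n b x D y c → PowEq n 1 (X.red b (c • y))

/-- One presentation reducing to a power suffices for `NullAt`. -/
theorem nullAt_of_rep (hn : n ≠ 0) (hx : n • x = 0) {D : Divisor L F} {y : F} {c : L}
    (h : X.Rep n b x D y c) (hp : PowEq n 1 (X.red b (c • y))) : NullAt X n b x :=
  ⟨hx, fun _ _ _ h' => hp.trans (Rep.unique hn h h')⟩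

/-- A power of a presentation presents the class at a multiple level. -/
theorem Rep.pow_level {D : Divisor L F} {y : F} {c : L} (h : X.Rep n b x D y c) (j : ℕ) :
    X.Rep (n * j) b x D (y ^ j) (c ^ j) ∧ X.red b (c ^ j • y ^ j) = X.red b (c • y) ^ j := by
  refine ⟨⟨h.cls, pow_ne_zero j h.y_ne, ?_, ?_⟩, ?_⟩
  · rw [JAC.divOf_pow, h.div_eq, ← mul_smul, mul_comm j n]
  · rw [← smul_pow]; exact h.prim.pow j
  · rw [← smul_pow, X.red_pow h.prim.1]

/-- The zero class reduces to a power. -/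
theorem nullAt_zero (hn : n ≠ 0) : NullAt X n b 0 := by
  refine nullAt_of_rep hn (smul_zero n) (D := 0) (y := 1) (c := 1)
    ⟨⟨zero_mem _, QuotientAddGroup.mk_zero _⟩, one_ne_zero, ?_, ?_⟩
    ⟨1, one_ne_zero, ?_⟩
  · ext v
    rw [divOf_apply, smul_zero, Finsupp.coe_zero, Pi.zero_apply, Place.ord_one]
  · rw [one_smul]; exact ⟨one_mem _, by rw [X.red_one]; exact one_ne_zero⟩
  · rw [one_smul, X.red_one, one_pow, mul_one]

/-- `NullAt` is closed under addition. -/
theorem NullAt.add (hn : n ≠ 0) (h : NullAt X n b x) (h' : NullAt X n b x') :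
    NullAt X n b (x + x') := by
  obtain ⟨D, y, c, r⟩ := exists_rep (X := X) b h.1
  obtain ⟨D', y', c', r'⟩ := exists_rep (X := X) b h'.1
  obtain ⟨rr, e⟩ := r.mul r'
  refine nullAt_of_rep hn (by rw [nsmul_add, h.1, h'.1, add_zero]) rr ?_
  obtain ⟨s, hs, es⟩ := h.2 _ _ _ r
  obtain ⟨s', hs', es'⟩ := h'.2 _ _ _ r'
  exact ⟨s * s', mul_ne_zero hs hs', by rw [e, es, es', one_mul, one_mul, one_mul, mul_pow]⟩

/-- `NullAt` is closed under multiples. -/
theorem NullAt.nsmul (hn : n ≠ 0) (h : NullAt X n b x) (j : ℕ) : NullAt X n b (j • x) := by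
  induction j with
  | zero => rw [zero_nsmul]; exact nullAt_zero hn
  | succ j ih => rw [succ_nsmul]; exact ih.add hn h

/-- `NullAt` is closed under negation. -/
theorem NullAt.neg (hn : n ≠ 0) (h : NullAt X n b x) : NullAt X n b (-x) := by
  obtain ⟨m, rfl⟩ : ∃ m, n = m + 1 := ⟨n - 1, (Nat.succ_pred_eq_of_ne_zero hn).symm⟩
  have e : -x = m • x := by
    rw [neg_eq_iff_add_eq_zero, ← succ_nsmul', h.1]
  rw [e]
  exact h.nsmul hn m

variable (p : ℕ) [Fact p.Prime] [CharP k p]

/-- The exponent may be enlarged. -/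
theorem nullAt_add_exp {i : ℕ} (j : ℕ) (hx : p ^ i • x = 0) :
    NullAt X (p ^ (i + j)) b x ↔ NullAt X (p ^ i) b x := by
  have : CharP K p := charP_of_injective_algebraMap (algebraMap k K).injective p
  have hp : p ≠ 0 := (Fact.out : p.Prime).ne_zero
  obtain ⟨D, y, c, r⟩ := exists_rep (X := X) b hx
  obtain ⟨r', e⟩ := r.pow_level (p ^ j)
  rw [← pow_add] at r'
  constructor
  · intro h
    refine nullAt_of_rep (pow_ne_zero _ hp) hx r (PowEq.one_of_pow (j := j) ?_)
    have := h.2 _ _ _ r'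
    rwa [e] at this
  · intro h
    refine nullAt_of_rep (pow_ne_zero _ hp)
      (by rw [pow_add, mul_comm, mul_smul, hx, smul_zero]) r' ?_
    rw [e, pow_add]
    exact (h.2 _ _ _ r).one_pow _

/-- `NullAt` at level `p ^ i` implies it at every higher level. -/
theorem nullAt_mono {i j : ℕ} (hij : i ≤ j) (h : NullAt X (p ^ i) b x) : NullAt X (p ^ j) b x := by
  obtain ⟨l, rfl⟩ := Nat.exists_eq_add_of_le hij
  exact (nullAt_add_exp p l h.1).mpr h

/-- For a class killed by `p ^ i`, `NullAt` at any level gives it at level `p ^ i`. -/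
theorem nullAt_of_nullAt {i j : ℕ} (hx : p ^ i • x = 0) (h : NullAt X (p ^ j) b x) :
    NullAt X (p ^ i) b x := by
  rcases le_total i j with hij | hij
  · obtain ⟨l, rfl⟩ := Nat.exists_eq_add_of_le hij
    exact (nullAt_add_exp p l hx).mp h
  · exact nullAt_mono p hij h

/-- The `p`-power torsion classes reducing at `b` to powers. -/
def nullGroup (X : Degen π ι K) (b : Bool) : AddSubgroup (Pic0 L F) where
  carrier := {x | ∃ i, NullAt X (p ^ i) b x}
  zero_mem' := ⟨0, nullAt_zero (pow_ne_zero _ (Fact.out : p.Prime).ne_zero)⟩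
  add_mem' := fun ⟨i, h⟩ ⟨j, h'⟩ => ⟨max i j, (nullAt_mono p (le_max_left i j) h).add
    (pow_ne_zero _ (Fact.out : p.Prime).ne_zero) (nullAt_mono p (le_max_right i j) h')⟩
  neg_mem' := fun ⟨i, h⟩ => ⟨i, h.neg (pow_ne_zero _ (Fact.out : p.Prime).ne_zero)⟩

/-- Membership in `nullGroup` is `NullAt` at any killing level. -/
theorem mem_nullGroup {i : ℕ} (hx : p ^ i • x = 0) :
    x ∈ nullGroup p X b ↔ NullAt X (p ^ i) b x :=
  ⟨fun ⟨_, h⟩ => nullAt_of_nullAt p hx h, fun h => ⟨i, h⟩⟩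

variable {p}

/-- The image of a presentation under a symmetry. -/
theorem Rep.sym (Θ : Sym X) (he : Θ.e b = b) {D : Divisor L F} {y : F} {c : L}
    (h : X.Rep n b x D y c) :
    X.Rep n b (Θ.s • x) (Θ.s • D) (Θ.s • y) (SemilinearAut.baseAut Θ.s c) ∧
      X.red b (SemilinearAut.baseAut Θ.s c • (Θ.s • y)) = Θ.τ b • X.red b (c • y) := by
  have hp := Θ.prim h.prim
  rw [he, Θ.smul_smul_scalar] at hp
  refine ⟨⟨h.cls.smul Θ.s, (smul_ne_zero_iff_ne Θ.s).mpr h.y_ne, ?_, hp⟩, ?_⟩
  · rw [JAC.divOf_smul, h.div_eq]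
    exact map_nsmul (DistribSMul.toAddMonoidHom (Divisor L F) Θ.s) n D
  · have := Θ.red_eq b _ h.prim.1
    rwa [he, Θ.smul_smul_scalar] at this

/-- A symmetry fixing the reductions moves classes by null ones. -/
theorem nullAt_sym_sub (hn : n ≠ 0) (Θ : Sym X) (he : Θ.e b = b) (hτ : ∀ z : K, Θ.τ b • z = z)
    (hx : n • x = 0) : NullAt X n b (Θ.s • x - x) := by
  have hsx : n • (Θ.s • x) = 0 := by
    have := map_nsmul (DistribSMul.toAddMonoidHom (Pic0 L F) Θ.s) n x
    rw [hx, map_zero] at this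
    exact this.symm
  have hz : n • (Θ.s • x - x) = 0 := by rw [nsmul_sub, hsx, hx, sub_zero]
  obtain ⟨D, y, c, r⟩ := exists_rep (X := X) b hx
  obtain ⟨D', y', c', r'⟩ := exists_rep (X := X) b hz
  obtain ⟨r2, e2⟩ := r'.mul r
  rw [sub_add_cancel] at r2
  obtain ⟨r1, e1⟩ := r.sym Θ he
  refine nullAt_of_rep hn hz r' (PowEq.one_of_mul r.red_ne ?_)
  have := Rep.unique hn r1 r2
  rwa [e1, hτ, e2] at this

end Degen

end Fermat.BAD

end
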