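import Fermat.Agent.BAD.Ord.Rat
import Fermat.Agent.BAD.Inst.Pairs
import Fermat.Agent.BAD.X0.Rational
import Fermat.Agent.BAD.Engine.Mul

/-!
# Rational functions have all glued pairs as reductions

Interleaving the two expansions turns the glued pairs into single series; the space of bounded
functions is Galois stable, so the rational integral ones have spanning reductions, and scalars
lifted to `F.M` give the lifts needed by the engine.

The argument is that of `Inst/Pairs`, now at level `Γ_H(M q)`.
-/

set_option autoImplicit false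

attribute [local instance 10000] SubalgebraClass.toAlgebra HahnSeries.powerSeriesAlgebra

noncomputable section

namespace Fermat.BAD.Ord

open Fermat.MC Fermat.BAD.XH

local notation "Qb" => AlgebraicClosure ℚ
local notation "Γℚ" => (AlgebraicClosure ℚ ≃ₐ[ℚ] AlgebraicClosure ℚ)

variable (M q : ℕ) [NeZero M] [NeZero q] [Fact q.Prime] (H : Subgroup (ZMod M)ˣ) [Lvl.NegMem H]
  (hq : q.Prime) (hqM : ¬ q ∣ M)
variable [FF.IsFunctionField Qb (FU M q H)]
variable {A : ValuationSubring (AlgebraicClosure ℚ)} (hA : A.LiesOverPrime q)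
  [IsAlgClosed (IsLocalRing.ResidueField A)]
  [FF.IsFunctionField (IsLocalRing.ResidueField A) (KH M H A)]
variable {rb : Γℚ →* GL (Fin 2) (ZMod q)} {a₀ : ℕ} (F : AtP.LocalField q A rb a₀)

local notation "kA" => IsLocalRing.ResidueField A

variable (X : Degen (IsLocalRing.residue A) (emb M q H hq hqM)
  (KH M H A))

/-- Functions with rational integral expansions are rational over `F.M`. -/
theorem ratInt_mem_R {m : ℕ} {g : FU M q H} (hg : g ∈ X.ratIntOf m) :
    g ∈ (ratData M q H hq hqM F).R := fun b n => by
  obtain ⟨a, ha, haQ⟩ := hg.2 b n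
  rw [ha]
  exact Inst.mem_M_of_rat q F haQ

variable (hA0 : X.A0 = A0 M q H)
include hA hA0

/-- The rational integral functions span the glued pairs. -/
theorem glueSp_le_span {m : ℕ} (hm : X.N0 ≤ m) :
    X.glueSp (fun _ => 1) m ≤
      Submodule.span kA ((fun g b => X.red b g) '' X.ratIntOf m) :=
  X.glueSp_le_span_of_gal hq hA (fun σ g => galAut M q H σ • g) (galAut_rr M q H hq hqM X hA0)
    (fun σ b f => emb_galAut M q H hq hqM σ b f) (coeff_mem M q H hq hqM) hm

/-- **Glued pairs lift to functions with coefficients in `F.M`.** -/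
theorem liftGlue {m : ℕ} (hm : X.N0 ≤ m) : X.LiftGlue (ratData M q H hq hqM F) m :=
  X.liftGlue_of_span _ (fun _ hg => ratInt_mem_R M q H hq hqM F X hg)
    (glueSp_le_span M q H hq hqM hA X hA0 hm)

end Fermat.BAD.Ord

end
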