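import Fermat.Agent.BAD.Ord.Galois
import Fermat.Agent.BAD.Inst.Rat
import Fermat.Agent.BAD.AtP.LocalDef
import Fermat.Agent.BAD.Wit.Threshold
import Fermat.Agent.RED.Spec.Galois

/-!
# The rationality data of the engine at level `Γ_H(M p)`

`ratData`: for a local field `F` the functions with both expansions over `F.M` are the functions
fixed by the automorphisms fixing `F.M`; elements of inertia preserving `F.M` act on coefficients
compatibly with both reductions. The engine uses it through the presentations of classes (`Pres`),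
norm data (`Norm`) and scales (`Scale`), combined in `Engine`.
-/

set_option autoImplicit false

attribute [local instance 10000] SubalgebraClass.toAlgebra HahnSeries.powerSeriesAlgebra

noncomputable section

open AlgebraicCurve

namespace Fermat.BAD.Ord

open Fermat.MC Fermat.RED Fermat.BAD.XH

local notation "Qb" => AlgebraicClosure ℚ
local notation "Γℚ" => (AlgebraicClosure ℚ ≃ₐ[ℚ] AlgebraicClosure ℚ)

variable (M q : ℕ) [NeZero M] [NeZero q] [Fact q.Prime] (H : Subgroup (ZMod M)ˣ) [Lvl.NegMem H]
  (hq : q.Prime) (hqM : ¬ q ∣ M)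
variable {A : ValuationSubring (AlgebraicClosure ℚ)}
variable {rb : Γℚ →* GL (Fin 2) (ZMod q)} {a₀ : ℕ} (F : AtP.LocalField q A rb a₀)

/-- The functions with both expansions over `F.M`. -/
def ratFns : Subring (FU M q H) where
  carrier := {f | ∀ b n, (emb M q H hq hqM b f).coeff n ∈ F.M}
  zero_mem' := fun b n => by rw [map_zero, HahnSeries.coeff_zero]; exact F.M.zero_mem
  one_mem' := fun b n => by
    rw [map_one, HahnSeries.coeff_one]
    split
    · exact F.M.one_mem
    · exact F.M.zero_mem
  add_mem' := fun {f g} hf hg b n => by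
    rw [map_add, HahnSeries.coeff_add]; exact F.M.add_mem (hf b n) (hg b n)
  neg_mem' := fun {f} hf b n => by
    rw [map_neg, HahnSeries.coeff_neg]; exact F.M.neg_mem (hf b n)
  mul_mem' := fun {f g} hf hg b n => by
    rw [map_mul, HahnSeries.coeff_mul]
    exact sum_mem fun ij _ => F.M.mul_mem (hf b _) (hg b _)

/-- Rationality is invariance. -/
theorem mem_ratFns_iff_fixed {f : FU M q H} :
    f ∈ ratFns M q H hq hqM F ↔ ∀ τ ∈ Inst.fixSet F.M, galAut M q H τ • f = f := by
  constructor
  · intro h τ hτ
    refine (emb M q H hq hqM true).injective (HahnSeries.ext (funext fun n => ?_))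
    rw [emb_galAut_coeff]
    exact hτ _ (h true n)
  · intro h b n
    refine F.fixM _ fun τ hτ => ?_
    conv_rhs => rw [← h (Inst.toGal τ) hτ]
    rw [emb_galAut_coeff]
    rfl

/-- Constants in `F.M` are rational. -/
theorem algebraMap_mem_ratFns {a : Qb} (ha : a ∈ F.M) :
    algebraMap Qb (FU M q H) a ∈ ratFns M q H hq hqM F := fun b n => by
  rw [emb_algebraMap]
  have := Fermat.RED.coeff_algebraMap_mul a (1 : LaurentSeries Qb) n
  rw [mul_one] at this
  rw [this, HahnSeries.coeff_one]
  split
  · rwa [mul_one]
  · rw [mul_zero]; exact F.M.zero_mem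

/-- The functions at level `Γ_H(M q)` rational over `F.M`, as `RatData`. -/
def ratData : RatData (IsLocalRing.residue A) (emb M q H hq hqM) where
  M := F.M
  ρ := F.ρ
  ρ_mem := F.ρ_mem
  ρ_ne := F.ρ_ne
  ρ_A := F.ρ_A
  ρ_small := F.ρ_small
  value := F.value
  surjM := F.surjM
  R := ratFns M q H hq hqM F
  algebraMap_mem := fun _ ha => algebraMap_mem_ratFns M q H hq hqM F ha
  coeff_mem := fun _ hf => hf

/-- The rational functions are those fixed by the automorphisms fixing `F.M`. -/
theorem mem_ratData_R {f : FU M q H} :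
    f ∈ (ratData M q H hq hqM F).R ↔ ∀ τ ∈ Inst.fixSet F.M, galAut M q H τ • f = f :=
  mem_ratFns_iff_fixed M q H hq hqM F

/-- Rational coefficients at both expansions is rationality. -/
theorem rc_iff [IsAlgClosed (IsLocalRing.ResidueField A)] {f : FU M q H} :
    (ratData M q H hq hqM F).RC f ↔ f ∈ (ratData M q H hq hqM F).R :=
  ⟨fun h b n => (ratData M q H hq hqM F).mem_serM.mp (h b) n,
    fun h => (ratData M q H hq hqM F).rc_of_mem h⟩

/-- An element is in `F.M` as soon as it is fixed. -/
theorem fixM_ratData :
    FixM (ratData M q H hq hqM F) := F.fixM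

/-- The threshold of the local field for the rationality data. -/
theorem thresh_ratData
    [CharP (IsLocalRing.ResidueField A) q] :
    Thresh (ratData M q H hq hqM F) q a₀ where
  a_pos := F.a_pos
  prime := hq
  char := CharP.cast_eq_zero _ q
  cast_ne := Nat.cast_ne_zero.mpr hq.ne_zero
  val_p := F.val_p

/-- `1 - ζ` has valuation `a₀` for the rationality data. -/
theorem val_lam_ratData : (ratData M q H hq hqM F).Val (1 - F.ζ) a₀ := F.val_lam

section Auto

variable [FF.IsFunctionField Qb (FU M q H)]
  [IsAlgClosed (IsLocalRing.ResidueField A)]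
  [FF.IsFunctionField (IsLocalRing.ResidueField A) (KH M H A)]
variable (X : Degen (IsLocalRing.residue A) (emb M q H hq hqM)
  (KH M H A))
variable (hA0 : X.A0 = A0 M q H)
include hA0

/-- Galois preserves the spaces of functions bounded by `A0`. -/
theorem galAut_rr (σ : Γℚ) (m : ℕ) (f : FU M q H) (hf : f ∈ riemannRochSpace (m • X.A0)) :
    galAut M q H σ • f ∈ riemannRochSpace (m • X.A0) := by
  have h := FF.smul_mem_riemannRochSpace (galAut M q H σ) hf
  rwa [smul_comm, show galAut M q H σ • X.A0 = X.A0 by rw [hA0, galAut_A0]] at h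

/-- An element of inertia preserving `F.M` as an automorphism of the coefficients. -/
def coeffAut (γ : Γℚ) (hγ : γ ∈ A.inertiaSubgroupIn ℚ) (hmaps : ∀ c ∈ F.M, γ c ∈ F.M) :
    Degen.CoeffAut X (ratData M q H hq hqM F) where
  σ := (γ : Qb →+* Qb)
  s := galHom M q H γ
  s_coeff := fun b f n => emb_galAut_coeff M q H hq hqM γ b f n
  s_rr := fun m f hf => galAut_rr M q H hq hqM X hA0 γ m f hf
  σ_mem := hmaps
  σ_A := fun _ hc => (apply_mem_of_inertia hγ hc).1
  σ_red := fun c _ => (apply_mem_of_inertia hγ c.2).2

end Auto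

end Fermat.BAD.Ord

end
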