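import Fermat.Agent.BAD.Ord.Null
import Fermat.Agent.BAD.AtP.Powers
import Fermat.Agent.BAD.Ord.Pres

/-!
# The two reductions of a class with vanishing pushforwards

At level `Γ_H(M q)` let the pushforwards to level `M` of a torsion class vanish.  The norms of a
presentation are powers and reduce to one reduction times the Frobenius of the other, so the
square of Frobenius and the inverse square of the Atkin-Lehner operator differ by a class
reducing to powers at both components.
-/

set_option autoImplicit false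
set_option linter.unusedSectionVars false

attribute [local instance 10000] SubalgebraClass.toAlgebra HahnSeries.powerSeriesAlgebra

noncomputable section

open ModularCurve AlgebraicCurve IsLocalRing

namespace Fermat.BAD.Ord

open Fermat.FF Fermat.MC Fermat.JAC Fermat.RED Fermat.RED.Model Fermat.BAD.XH Fermat.BAD.AtP

local notation "Qb" => AlgebraicClosure ℚ
local notation "Γℚ" => (AlgebraicClosure ℚ ≃ₐ[ℚ] AlgebraicClosure ℚ)

section Abstract

/-- The algebra of the two norm relations at the component at `0`. -/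
theorem powEq_of_relations {G : Type*} [Field G] {n : ℕ} (σ : G →+* G) {a b b' : G}
    (h1 : PowEq n 1 (a * σ b)) (h2 : PowEq n 1 (b' * σ a)) :
    PowEq n b' (σ (σ b)) := by
  obtain ⟨r, hr, e1⟩ := h1
  obtain ⟨s, hs, e2⟩ := h2
  refine ⟨σ r / s, div_ne_zero ((map_ne_zero σ).mpr hr) hs, ?_⟩
  have h3 : σ a * σ (σ b) = σ r ^ n := by
    rw [← map_mul, e1, one_mul, map_pow]
  rw [one_mul] at e2
  rw [div_pow, mul_div_assoc', eq_div_iff (pow_ne_zero _ hs), ← e2, ← h3]
  ring

/-- In the norm relation one reduction is a power as soon as the other one is. -/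
theorem powEq_iff_of_relation {G : Type*} [Field G] {n : ℕ} (σ : G ≃+* G) {a b : G}
    (h : PowEq n 1 (a * σ b)) : PowEq n 1 a ↔ PowEq n 1 b := by
  obtain ⟨r, hr, e⟩ := h
  rw [one_mul] at e
  constructor
  · rintro ⟨s, hs, es⟩
    refine ⟨σ.symm (r / s), by simp [hr, hs], σ.injective ?_⟩
    rw [one_mul] at es ⊢
    rw [map_pow, σ.apply_symm_apply, div_pow, eq_div_iff (pow_ne_zero _ hs), mul_comm, ← es, e]
  · rintro ⟨s, hs, es⟩
    refine ⟨r / σ s, div_ne_zero hr (by simp [hs]), ?_⟩
    rw [one_mul] at es ⊢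
    rw [div_pow, eq_div_iff (pow_ne_zero _ (by simp [hs])), ← map_pow, ← es, e]

end Abstract

variable {M q : ℕ} [NeZero M] [NeZero q] [Fact q.Prime] {H : Subgroup (ZMod M)ˣ} [Lvl.NegMem H]
  (hqM : ¬ q ∣ M)
variable [FF.IsFunctionField Qb (FU M q H)] [FF.IsFunctionField Qb (FH M H)]
variable {A : ValuationSubring (AlgebraicClosure ℚ)} (hA : A.LiesOverPrime q)
  [IsAlgClosed (ResidueField A)] [CharP (ResidueField A) q]
  [FF.IsFunctionField (ResidueField A) (KH M H A)]
variable (hν2 : Lvl.nuTwoG (Lvl.GammaH M H) = 0) (hν3 : Lvl.nuThreeG (Lvl.GammaH M H) = 0)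

local notation "kA" => ResidueField A

/-- The Frobenius automorphism `frobAut` of the residual function field, as a ring automorphism. -/
def frobK : KH M H A ≃+* KH M H A :=
  SemilinearAut.toRingAut (frobAut M q H (Fact.out : q.Prime) hA)

/-- `frobK` is the action of the residual Frobenius. -/
theorem frobK_apply (z : KH M H A) : frobK hA z = frobAut M q H Fact.out hA • z := rfl

/-- A class has a presentation whose inverse is regular. -/
theorem exists_regular_rep {x : Pic0 Qb (FU M q H)} {n : ℕ} (hx : n • x = 0) :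
    ∃ (D : Divisor.degZero (K := Qb) (F := FU M q H)) (y : FU M q H) (l : ℕ), Pic0.mk D = x ∧
      y ≠ 0 ∧ divOf Qb y = n • (D : Divisor Qb (FU M q H)) ∧
        y⁻¹ ∈ riemannRochSpace ((n * l) • A0 M q H) := by
  classical
  obtain ⟨l, D, hD, hle, -⟩ := exists_fixed_rep M q H (∅ : Set Γℚ) (x := x) (by simp)
  obtain ⟨y, hy, hdiv⟩ := hD.exists_div hx
  refine ⟨⟨D, hD.1⟩, y, l, hD.2, hy, hdiv, mem_riemannRochSpace.mpr fun v =>
    ordGE_iff.mpr (.inr ?_)⟩
  have hle' : D v ≤ (l : ℤ) * A0 M q H v := by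
    refine (Finsupp.le_def.mp hle v).trans ?_
    rw [Finsupp.single_apply]
    split
    · next h =>
      subst h
      have := A0_inf_pos M q H
      nlinarith
    · exact mul_nonneg (Int.natCast_nonneg l) (Finsupp.le_def.mp (A0_nonneg M q H) v)
  rw [v.ord_inv, ← divOf_apply y v, hdiv]
  simp only [Finsupp.smul_apply, nsmul_eq_mul, Nat.cast_mul]
  have := mul_le_mul_of_nonneg_left hle' (Int.natCast_nonneg n)
  linarith

/-- The inverse of a scalar multiple. -/
theorem smul_inv_eq (c : Qb) (y : FU M q H) : (c • y)⁻¹ = c⁻¹ • y⁻¹ := by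
  rw [Algebra.smul_def, Algebra.smul_def, mul_inv, map_inv₀]

/-- The inverse of a primitive multiple with regular inverse has an integral expansion. -/
theorem inv_int_of_regular {b : Bool} {c : Qb} {y : FU M q H} {m : ℕ}
    (hreg : y⁻¹ ∈ riemannRochSpace (m • A0 M q H))
    (hp : (degen M q H Fact.out hqM hA hν2 hν3).Prim b (c • y)) :
    emb M q H Fact.out hqM b (c • y)⁻¹ ∈ intSeries A := by
  have hr : (c • y)⁻¹ ∈ riemannRochSpace (m • (degen M q H Fact.out hqM hA hν2 hν3).A0) := by
    rw [smul_inv_eq]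
    exact Submodule.smul_mem _ _ hreg
  exact (degen M q H Fact.out hqM hA hν2 hν3).series_int_of_mem
    ((degen M q H Fact.out hqM hA hν2 hν3).prim_inv hp).1.1 hr

include hqM hA in
/-- A regular function of level `M` with integral `n`-th power has an integral expansion. -/
theorem int_of_pow_int {n : ℕ} (hn : n ≠ 0) {x : FH M H} (hx : x ∈ intClosure Qb (jM M H))
    (hi : ((x ^ n : FH M H) : LaurentSeries Qb) ∈ intSeries A) :
    (x : LaurentSeries Qb) ∈ intSeries A := by
  rcases eq_or_ne x 0 with rfl | hx0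
  · exact zero_mem _
  have h := (goodModel_FH M q H Fact.out hqM hA).1
  obtain ⟨c, hc, -, hcg⟩ := exists_scale_of_mem_intClosure hx
  obtain ⟨c', -, hc', g', hg', hne, e⟩ := h.exists_eq_smul_primitive hcg
    (mul_ne_zero ((_root_.map_ne_zero _).mpr hc) hx0)
  have hxe : x = algebraMap Qb (FH M H) (c' / c) * g' := by
    rw [map_div₀, div_mul_eq_mul_div, ← e, mul_div_cancel_left₀ _ ((_root_.map_ne_zero _).mpr hc)]
  set t := c' / c
  have hgi : (g' : LaurentSeries Qb) ∈ intSeries A := h.int_chart _ hg'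
  have htn : t ^ n ∈ A := by
    by_contra htA
    have hb : (t ^ n)⁻¹ ∈ A := (A.mem_or_inv_mem _).resolve_left htA
    have hge : g' ^ n = algebraMap Qb (FH M H) (t ^ n)⁻¹ * x ^ n := by
      rw [hxe, mul_pow, ← map_pow, ← mul_assoc, ← map_mul,
        inv_mul_cancel₀ (pow_ne_zero n (div_ne_zero hc' hc)), map_one, one_mul]
    refine pow_ne_zero n hne ?_
    rw [← redF_pow hgi, hge, redF_mul (h.int_algebraMap hb) hi, h.redF_algebraMap hb,
      map_eq_zero_of_inv_notMem h.surj (a := ⟨_, hb⟩) (by simpa using htA), map_zero, zero_mul]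
  have ht : t ∈ A := by
    rcases A.mem_or_inv_mem t with h1 | h1
    · exact h1
    · obtain ⟨m, rfl⟩ : ∃ m, n = m + 1 := ⟨n - 1, (Nat.succ_pred_eq_of_ne_zero hn).symm⟩
      rw [show t = t ^ (m + 1) * t⁻¹ ^ m by
        rw [inv_pow, pow_succ', mul_assoc, mul_inv_cancel₀ (pow_ne_zero m (div_ne_zero hc' hc)),
          mul_one]]
      exact mul_mem htn (pow_mem h1 m)
  rw [hxe, MulMemClass.coe_mul]
  exact mul_mem (algebraMap_mem_intSeries ht) hgi

/-- **The norm relation.** For a class killed by `n` and pushed to zero at level `M`, one reduction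
of a presentation times the Frobenius of the other is an `n`-th power. -/
theorem al_relation {n : ℕ} (hn : n ≠ 0) {x : Pic0 Qb (FU M q H)} (hx : n • x = 0)
    (hal : pushPic (al M q H) x = 0)
    {D : Divisor Qb (FU M q H)} {y : FU M q H} {c : Qb}
    {D' : Divisor Qb (FU M q H)} {y' : FU M q H} {c' : Qb}
    (h1 : Degen.Rep (degen M q H Fact.out hqM hA hν2 hν3) n true x D y c)
    (h0 : Degen.Rep (degen M q H Fact.out hqM hA hν2 hν3) n false x D' y' c') :
    PowEq n 1 ((degen M q H Fact.out hqM hA hν2 hν3).red true (c • y) *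
      frobK hA ((degen M q H Fact.out hqM hA hν2 hν3).red false (c' • y'))) := by
  set Y := degen M q H Fact.out hqM hA hν2 hν3
  have hq : q.Prime := Fact.out
  obtain ⟨E, z, l, hE, hz, hdiv, hreg⟩ := exists_regular_rep hx
  obtain ⟨e1, he1, hp1⟩ := Y.exists_smul_prim true hz
  obtain ⟨e0, he0, hp0⟩ := Y.exists_smul_prim false hz
  have hc : IsCls (E : Divisor Qb (FU M q H)) x := ⟨E.2, hE⟩
  obtain ⟨r1, hr1, er1⟩ := Degen.Rep.unique hn (X := Y) ⟨hc, hz, hdiv, hp1⟩ h1
  obtain ⟨r0, hr0, er0⟩ := Degen.Rep.unique hn (X := Y) ⟨hc, hz, hdiv, hp0⟩ h0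
  suffices h : PowEq n 1 (Y.red true (e1 • z) * frobK hA (Y.red false (e0 • z))) by
    refine h.trans ⟨r1 * frobK hA r0, mul_ne_zero hr1 (by simp [hr0]), ?_⟩
    rw [er1, er0, map_mul, map_pow, mul_pow]
    ring
  -- the norm of the inverse is a power
  obtain ⟨W, hW⟩ := exists_root_normAlong (al M q H) hn (D := E) (by rw [hE]; exact hal) hz hdiv
  obtain ⟨r, hr⟩ := IsAlgClosed.exists_pow_nat_eq ((e1 * e0 ^ q)⁻¹) (Nat.pos_of_ne_zero hn)
  set W' : FH M H := W⁻¹ * algebraMap Qb (FH M H) r with hW'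
  obtain ⟨ys, hys⟩ := inv_int_of_regular hqM hA hν2 hν3 hreg hp1
  obtain ⟨yd, hyd⟩ := inv_int_of_regular hqM hA hν2 hν3 hreg hp0
  obtain ⟨ζ, hζ⟩ := X0.exists_zeta q
  have hNinv : normAlong (al M q H) z⁻¹ = W⁻¹ ^ n := by
    refine (eq_inv_of_mul_eq_one_left ?_).trans (inv_pow W n).symm
    rw [hW, ← map_mul, inv_mul_cancel₀ hz, map_one]
  have hN : qExpand Qb q ((W' ^ n : FH M H) : LaurentSeries Qb) =
      qExpand Qb q (coeffMap A.subtype ys) *
        ∏ i : Fin q, twist (ζ ^ (i : ℕ)) (coeffMap A.subtype yd) := by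
    have hC : ∀ (b : Bool) (e : Qb), emb M q H hq hqM b ((e • z)⁻¹) =
        algebraMap Qb (LaurentSeries Qb) e⁻¹ * emb M q H hq hqM b z⁻¹ := fun b e => by
      rw [smul_inv_eq, Algebra.smul_def, map_mul, emb_algebraMap]
    have hA' : ∀ e : Qb, qExpand Qb q (algebraMap Qb (LaurentSeries Qb) e) =
        algebraMap Qb (LaurentSeries Qb) e := fun e => by
      rw [algebraMap_laurentSeries_eq_single, qExpand_single, mul_zero]
    have hT : ∀ (u : Qbˣ) (e : Qb), twist u (algebraMap Qb (LaurentSeries Qb) e) =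
        algebraMap Qb (LaurentSeries Qb) e :=
      RED.twist_algebraMap
    rw [hys, hyd, hC, hC, hW', mul_pow, ← map_pow, hr, ← hNinv, MulMemClass.coe_mul, map_mul,
      qExpand_norm M q H hq hqM hζ]
    simp only [map_mul, hA', hT, Finset.prod_mul_distrib, Finset.prod_const, Finset.card_univ,
      Fintype.card_fin]
    rw [show ((algebraMap Qb (FH M H) (e1 * e0 ^ q)⁻¹ : FH M H) : LaurentSeries Qb) =
      algebraMap Qb (LaurentSeries Qb) (e1 * e0 ^ q)⁻¹ from rfl, hA', mul_inv, map_mul]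
    simp only [map_inv₀, map_pow, inv_pow]
    ring
  obtain ⟨w0, hw0, hred⟩ := X0.exists_reduction_of_norm_type (π := residue A) hζ hN
  -- the two reductions
  have hredb : ∀ (b : Bool) (e : Qb) (hp : Y.Prim b (e • z)) (s : LaurentSeries A),
      coeffMap A.subtype s = emb M q H hq hqM b (e • z)⁻¹ →
      coeffMap (residue A) s = (((Y.red b (e • z))⁻¹ : KH M H A) : LaurentSeries kA) := by
    intro b e hp s hs
    have hi : emb M q H hq hqM b (e • z)⁻¹ ∈ intSeries A := ⟨s, hs⟩
    rw [← (Y.prim_inv hp).2, Y.red_of_int hi, ← redHom_coeffMap (residue A) s ⟨s, rfl⟩]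
    exact ((redF_of_mem hi).trans (congrArg _ (Subtype.ext hs.symm))).symm
  set P : KH M H A := (Y.red true (e1 • z))⁻¹ * frobK hA (Y.red false (e0 • z))⁻¹ with hP
  have hP0 : P ≠ 0 := mul_ne_zero (inv_ne_zero hp1.2) (by simp [hp0.2])
  have hPs : (P : LaurentSeries kA) = coeffMap (residue A) w0 := by
    rw [hred, hP, MulMemClass.coe_mul, frobK_apply, coe_frobAut_smul, hredb true e1 hp1 ys hys,
      hredb false e0 hp0 yd hyd]
  -- the root is integral
  have hW'i : W' ∈ intClosure Qb (jM M H) := by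
    refine mem_intClosure.mpr (IsIntegral.of_pow (Nat.pos_of_ne_zero hn) (mem_intClosure.mp ?_))
    rw [hW', mul_pow, ← hNinv, ← map_pow]
    exact mul_mem (normAlong_mem_intClosure M q H
      (mem_intClosure_of_mem_A0 M q H hq hqM hreg)) ((intClosure Qb (jM M H)).algebraMap_mem _)
  have hWs : ((W' ^ n : FH M H) : LaurentSeries Qb) = coeffMap A.subtype w0 := hw0
  obtain ⟨w, hw⟩ : ∃ w, coeffMap A.subtype w = ((W' : FH M H) : LaurentSeries Qb) :=
    int_of_pow_int hqM hA hn hW'i ⟨w0, hWs.symm⟩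
  have hwn : coeffMap (residue A) w ^ n = coeffMap (residue A) w0 := by
    rw [← map_pow]
    refine congrArg _ (Model.coeffMap_subtype_injective A ?_)
    rw [map_pow, hw, ← hWs, SubmonoidClass.coe_pow]
  set wK : KH M H A := ⟨coeffMap (residue A) w, redF_mem_K M H W' w hw.symm⟩
  have hPw : P = wK ^ n := Subtype.ext (by rw [hPs, SubmonoidClass.coe_pow, ← hwn])
  refine ⟨wK⁻¹, inv_ne_zero fun e => hP0 (by rw [hPw, e, zero_pow hn]), ?_⟩
  rw [one_mul, inv_pow, ← hPw, hP, mul_inv, map_inv₀, inv_inv, inv_inv]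

end Fermat.BAD.Ord

end
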