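import Fermat.Agent.BAD.Ord.LevelUp
import Fermat.Agent.GR.RT.OrdInputProofStatement
import Fermat.Agent.BAD.Ord.Engine

/-!
# Torsion of `X_H (M p)` at a decomposition group over `p ∤ M`, trivial character at `p`

`ordTorsion`, the output of this folder: the proof of `GR.RT.OrdTorsion`, from which `GR/RT` deduces
the inputs on new forms at `p` (in `Top/Main` for S01, in `Top/Rows/Inputs` for the milestones).
For odd `p` raise `M` to `4 M`, where `X_H` has no elliptic point (`LevelUp`).  There `bothNull`,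
the `p`-power torsion classes reducing to powers on both components, satisfies the three conditions
(`nullAt_inertia`, `nullAt_frobenius`, `iterate_eq_zero`).  At level `M` the subgroup `Z` is its
preimage under pullback and the multiple `d` is the degree of the covering (`transfer`).
-/

set_option autoImplicit false
set_option linter.unusedSectionVars false

noncomputable section

open ModularCurve AlgebraicCurve IsLocalRing

namespace Fermat.BAD.Ord

-- both lead to searches that take seconds to fail on subfields of Laurent series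
attribute [-instance] IsLocalRing.ResidueField.algebraOfIsIntegral IntermediateField.algebra'

open Fermat.MC Fermat.JAC Fermat.JAC.XH Fermat.BAD.XH
open Fermat.JAC.X0 (embC)

local notation "Qb" => AlgebraicClosure ℚ
local notation "Γℚ" => (AlgebraicClosure ℚ ≃ₐ[ℚ] AlgebraicClosure ℚ)

section Level

variable {M p : ℕ} [NeZero M] [NeZero p] [Fact p.Prime] {H : Subgroup (ZMod M)ˣ} [Lvl.NegMem H]
  (hpM : ¬ p ∣ M)
variable [FF.IsFunctionField Qb (FU M p H)] [FF.IsFunctionField Qb (FH M H)]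
variable {A : ValuationSubring (AlgebraicClosure ℚ)} (hA : A.LiesOverPrime p)
  [IsAlgClosed (ResidueField A)] [CharP (ResidueField A) p]
  [FF.IsFunctionField (ResidueField A) (KH M H A)]
variable (hν2 : Lvl.nuTwoG (Lvl.GammaH M H) = 0) (hν3 : Lvl.nuThreeG (Lvl.GammaH M H) = 0)

local notation "X" => degen M p H Fact.out hpM hA hν2 hν3

/-- The `p`-power torsion classes reducing to powers at both components. -/
def bothNull : AddSubgroup (Pic0 Qb (FU M p H)) :=
  Degen.nullGroup p X true ⊓ Degen.nullGroup p X false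

/-- A class reducing to a `p ^ n`-th power at both components lies in `bothNull`. -/
theorem mem_bothNull {x : Pic0 Qb (FU M p H)} {n : ℕ}
    (h : ∀ b, Degen.NullAt X (p ^ n) b x) : x ∈ bothNull hpM hA hν2 hν3 :=
  AddSubgroup.mem_inf.mpr ⟨⟨n, h true⟩, ⟨n, h false⟩⟩

/-- Conversely, a class in `bothNull` killed by `p ^ n` reduces to `p ^ n`-th powers. -/
theorem nullAt_of_mem_bothNull {x : Pic0 Qb (FU M p H)} (h : x ∈ bothNull hpM hA hν2 hν3) {n : ℕ}
    (hx : p ^ n • x = 0) (b : Bool) : Degen.NullAt X (p ^ n) b x := by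
  obtain ⟨ht, hf⟩ := AddSubgroup.mem_inf.mp h
  cases b
  · exact (Degen.mem_nullGroup p hx).mp hf
  · exact (Degen.mem_nullGroup p hx).mp ht

/-- **On the classes in `bothNull` killed by both pushforwards the element `γ` of inertia is the
cyclotomic value up to nilpotents**: `(γ - w)ⁿ x = 0` if `pⁿ x = 0`. -/
theorem iterate_eq_zero {L : IntermediateField ℚ Qb} (Fs : TwoFields p A L)
    (hfix : ∀ τ : Γℚ, (∀ c ∈ L, τ c = c) → ∀ x : Pic0 Qb (FU M p H), p • x = 0 → τ • x = x) :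
    ∀ (n : ℕ) (x : Pic0 Qb (FU M p H)), x ∈ bothNull hpM hA hν2 hν3 → p ^ n • x = 0 →
      pushPic (al M p H) x = 0 → pushPic (be M p H) x = 0 →
        (fun z => Fs.T₂.γ • z -
          ((Fermat.CFT.cycChar p Fs.T₂.γ : (ZMod p)ˣ) : ZMod p).val • z)^[n] x = 0 := by
  set w := ((Fermat.CFT.cycChar p Fs.T₂.γ : (ZMod p)ˣ) : ZMod p).val
  set γ := Fs.T₂.γ
  intro n
  induction n with
  | zero => intro x _ hx _ _; simpa using hx
  | succ n ih =>
    intro x hmem hx hal hbe
    have hp0 : p ^ (n + 1) ≠ 0 := pow_ne_zero _ (Fact.out : p.Prime).ne_zero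
    have hsm : ∀ k : ℕ, ∀ z : Pic0 Qb (FU M p H), k • (γ • z) = γ • (k • z) := fun k z =>
      (map_nsmul (DistribSMul.toAddMonoidHom (Pic0 Qb (FU M p H)) γ) k z).symm
    -- `γ = w` on `pⁿ x`, so `(γ - w) x` is killed by `pⁿ` and satisfies the hypotheses again
    have hz : p • (p ^ n • x) = 0 := by rw [← mul_smul, ← pow_succ', hx]
    have hzero : γ • (p ^ n • x) = w • (p ^ n • x) := by
      refine smul_eq_cyc hpM hA hν2 hν3 Fs hz (fun τ hτ => hfix τ hτ _ hz) (fun b D y c hr => ?_)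
        (by rw [map_nsmul, hal, smul_zero]) (by rw [map_nsmul, hbe, smul_zero])
      have hnull := nullAt_of_mem_bothNull hpM hA hν2 hν3
        (AddSubgroup.nsmul_mem _ hmem (p ^ n)) (n := 1) (by rwa [pow_one]) b
      rw [pow_one] at hnull
      obtain ⟨r, -, hr'⟩ := hnull.2 D y c hr
      exact ⟨r, by rw [hr', one_mul]⟩
    rw [Function.iterate_succ_apply]
    refine ih _ ?_ ?_ ?_ ?_
    · refine sub_mem ?_ (AddSubgroup.nsmul_mem _ hmem w)
      have h := mem_bothNull hpM hA hν2 hν3 (fun b =>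
        nullAt_inertia hpM hA hν2 hν3 Fs.T₂.mem hp0 hx b)
      exact (sub_add_cancel (γ • x) x) ▸ add_mem h hmem
    · rw [nsmul_sub, hsm, smul_comm (p ^ n) w x, hzero, sub_self]
    · rw [map_sub, pushPic_al_galois, map_nsmul, hal, smul_zero, sub_zero]
      exact smul_zero (A := Pic0 Qb (FH M H)) γ
    · rw [map_sub, pushPic_be_galois, map_nsmul, hbe, smul_zero, sub_zero]
      exact smul_zero (A := Pic0 Qb (FH M H)) γ

end Level

section Transfer

variable {M M' p : ℕ} [NeZero M] [NeZero M'] [NeZero p] [Fact p.Prime]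
  {H : Subgroup (ZMod M)ˣ} [Lvl.NegMem H] {H' : Subgroup (ZMod M')ˣ} [Lvl.NegMem H']
  (hpM : ¬ p ∣ M) (hpM' : ¬ p ∣ M')
  (h₀ : Lvl.GammaH M' H' ≤ Lvl.GammaH M H)
  (h₁ : Lvl.GammaH (M' * p) (upH M' H' p) ≤ Lvl.GammaH (M * p) (upH M H p))
variable [FF.IsFunctionField Qb (FU M p H)] [FF.IsFunctionField Qb (FH M H)]
  [FF.IsFunctionField Qb (FU M' p H')] [FF.IsFunctionField Qb (FH M' H')]
variable {A : ValuationSubring (AlgebraicClosure ℚ)} (hA : A.LiesOverPrime p)
  [IsAlgClosed (ResidueField A)] [CharP (ResidueField A) p]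
  [FF.IsFunctionField (ResidueField A) (KH M' H' A)]
variable (hν2 : Lvl.nuTwoG (Lvl.GammaH M' H') = 0) (hν3 : Lvl.nuThreeG (Lvl.GammaH M' H') = 0)

/-- The pullback from level `M p` to level `M' p` commutes with the Galois action. -/
theorem galois_pullPic (σ : Γℚ) (z : Pic0 Qb (FU M p H)) :
    σ • pullPic (inclFL Qb h₁) z = pullPic (inclFL Qb h₁) (σ • z) := by
  rw [galois_smul_pic0_def, galois_smul_pic0_def]
  exact (pullPic_smul (φ := inclFL Qb h₁) (ψ := inclFL Qb h₁)
    (s' := arithmeticGalois (Lvl.FQ (Lvl.GammaH (M' * p) (upH M' H' p))) σ)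
    (inclFL_smul Qb h₁ σ) z).symm

include hpM hpM' h₀ h₁ hA hν2 hν3 in
/-- The three conditions at level `M` from those at a level `M'` above it: `Z` consists of the
classes whose pullback lies in `bothNull` and `d` is the degree of the covering. -/
theorem transfer (hp2 : p ≠ 2) (hdvd : M * p ∣ M' * p) {u : (ZMod (M * p))ˣ}
    {u' : (ZMod (M' * p))ˣ}
    (hu' : ZMod.unitsMap (dvd_mul_right M' p) u' = qUnit M' p Fact.out hpM')
    (hδ : Lvl.diamondHom (upH M H p) embC (ZMod.unitsMap hdvd u') =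
      Lvl.diamondHom (upH M H p) embC u) :
    ∃ (Z : AddSubgroup (Pic0 Qb (FU M p H))) (γ : Γℚ) (d : ℕ), d ≠ 0 ∧
      γ ∈ A.inertiaSubgroupIn ℚ ∧ Fermat.CFT.cycChar p γ ≠ 1 ∧
      (∀ σ ∈ A.inertiaSubgroupIn ℚ, ∀ (n : ℕ) (x : Pic0 Qb (FU M p H)), p ^ n • x = 0 →
        d • (σ • x - x) ∈ Z) ∧
      (∀ φ : Γℚ, A.IsFrobeniusAt φ p → ∀ (n : ℕ) (x : Pic0 Qb (FU M p H)), p ^ n • x = 0 →
        pushPic (al M p H) x = 0 → pushPic (be M p H) x = 0 →
          d • (φ • φ • x -
            SemilinearAut.ofAlgAut (Lvl.diamondHom (upH M H p) embC u) • x) ∈ Z) ∧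
      ∀ (n : ℕ) (x : Pic0 Qb (FU M p H)), x ∈ Z → p ^ n • x = 0 →
        pushPic (al M p H) x = 0 → pushPic (be M p H) x = 0 →
          d • (fun z => γ • z -
            ((Fermat.CFT.cycChar p γ : (ZMod p)ˣ) : ZMod p).val • z)^[n] x = 0 := by
  have hp : p.Prime := Fact.out
  set φ := inclFL Qb h₁
  -- the pullback commutes with Galois and with the diamonds
  have eσ : ∀ (σ : Γℚ) (z : Pic0 Qb (FU M p H)), σ • pullPic φ z = pullPic φ (σ • z) :=
    galois_pullPic h₁
  have ed : ∀ z : Pic0 Qb (FU M p H),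
      SemilinearAut.ofAlgAut (Lvl.diamondHom (upH M' H' p) embC u') • pullPic φ z =
        pullPic φ (SemilinearAut.ofAlgAut (Lvl.diamondHom (upH M H p) embC u) • z) := fun z =>
    (pullPic_smul (φ := φ) (ψ := φ)
      (s := SemilinearAut.ofAlgAut (Lvl.diamondHom (upH M H p) embC u))
      (s' := SemilinearAut.ofAlgAut (Lvl.diamondHom (upH M' H' p) embC u'))
      (fun f => by
        rw [← hδ]
        exact XC.diamond_inclFL embC hdvd h₁ u' f) z).symm
  -- the two local fields, over a number field fixing the `p`-torsion at level `M' p`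
  obtain ⟨E, hE, hEfix⟩ := Fermat.JAC.XH.exists_field (M' * p) (upH M' H' p) p hp.ne_zero
  have := hE
  let L : IntermediateField ℚ Qb := IntermediateField.normalClosure ℚ E Qb
  have : Normal ℚ Qb := IsAlgClosure.normal ℚ Qb
  have : Normal ℚ L := normalClosure.normal ℚ E Qb
  have : FiniteDimensional ℚ L := normalClosure.is_finiteDimensional ℚ E Qb
  obtain ⟨Fs⟩ := nonempty_twoFields (A := A) ⟨hp, hA⟩ hp2 L
  have hfix : ∀ τ : Γℚ, (∀ c ∈ L, τ c = c) →
      ∀ x : Pic0 Qb (FU M' p H'), p • x = 0 → τ • x = x := fun τ hτ x hx =>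
    hEfix τ (fun a ha => hτ a (IntermediateField.le_normalClosure E ha)) x hx
  have hpn : ∀ n : ℕ, p ^ n ≠ 0 := fun n => pow_ne_zero n hp.ne_zero
  have hpull : ∀ {n : ℕ} {x : Pic0 Qb (FU M p H)}, p ^ n • x = 0 → p ^ n • pullPic φ x = 0 :=
    fun h => by rw [← map_nsmul, h, map_zero]
  refine ⟨(bothNull hpM' hA hν2 hν3).comap (pullPic φ), Fs.T₂.γ, finrankAlong Qb φ,
    X0.finrankAlong_ne_zero φ, Fs.T₂.mem, Fs.cyc_ne, fun σ hσ n x hx => ?_,
    fun g hg n x hx hal hbe => ?_, fun n x hxZ hx hal hbe => ?_⟩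
  -- inertia
  · refine AddSubgroup.nsmul_mem _ (AddSubgroup.mem_comap.mpr ?_) _
    rw [map_sub, ← eσ]
    exact mem_bothNull hpM' hA hν2 hν3 fun b =>
      nullAt_inertia hpM' hA hν2 hν3 hσ (hpn n) (hpull hx) b
  -- the square of Frobenius
  · refine AddSubgroup.nsmul_mem _ (AddSubgroup.mem_comap.mpr ?_) _
    rw [map_sub, ← eσ, ← eσ, ← ed]
    obtain ⟨h1, h2⟩ := pushes_pullPic hpM hpM' h₀ h₁ (hpn n) hx hal hbe
    exact mem_bothNull hpM' hA hν2 hν3 fun b =>
      nullAt_frobenius hpM' hA hν2 hν3 hg hu' (hpn n) (hpull hx) h1 h2 b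
  -- nilpotence of `γ - w`: apply `pushPic φ ∘ pullPic φ = d`
  · obtain ⟨h1, h2⟩ := pushes_pullPic hpM hpM' h₀ h₁ (hpn n) hx hal hbe
    set w := ((Fermat.CFT.cycChar p Fs.T₂.γ : (ZMod p)ˣ) : ZMod p).val
    have hsemi : Function.Semiconj (pullPic φ) (fun z => Fs.T₂.γ • z - w • z)
        (fun z => Fs.T₂.γ • z - w • z) := fun z => by
      rw [map_sub, map_nsmul, ← eσ]
    rw [← X0.pushPic_pullPic φ, (hsemi.iterate_right n).eq,
      iterate_eq_zero hpM' hA hν2 hν3 Fs hfix n _ (AddSubgroup.mem_comap.mp hxZ) (hpull hx) h1 h2,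
      map_zero]

end Transfer

/-- Reduction from level `M'` to level `M` maps the class of `p` to the class of `p`. -/
theorem unitsMap_qUnit {M M' p : ℕ} (hp : p.Prime) (hpM : ¬ p ∣ M)
    (hpM' : ¬ p ∣ M') (h : M ∣ M') : ZMod.unitsMap h (qUnit M' p hp hpM') = qUnit M p hp hpM :=
  Units.ext (by simp [ZMod.unitsMap, qUnit])

/-- **`OrdTorsion p`**: `transfer` from level `4 M`. -/
theorem ordTorsion (p : ℕ) [Fact p.Prime] [NeZero p] : Fermat.GR.RT.OrdTorsion p := by
  intro M _ H _ hpM hp2 A hA u hu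
  have hp : p.Prime := Fact.out
  have hpM' : ¬ p ∣ M * 4 := fun h => (hp.dvd_mul.mp h).elim hpM fun h4 =>
    hp2 ((Nat.prime_dvd_prime_iff_eq hp Nat.prime_two).mp
      (hp.dvd_of_dvd_pow (show p ∣ 2 ^ 2 from h4)))
  have := Fermat.RED.Model.isAlgClosed_residue A
  have := Fermat.RED.charP_residue hp hA
  have := isFunctionField_KH (M * 4) p (upH M H 4) hp hpM' hA
  obtain ⟨hν2, hν3⟩ := nuG_GammaH_eq_zero (M * 4) (upH M H 4) (Or.inl ⟨M, mul_comm M 4⟩)
  have hdvd : M * p ∣ M * 4 * p := mul_dvd_mul_right (dvd_mul_right M 4) p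
  have hcomp : ∀ w : (ZMod (M * 4 * p))ˣ,
      ZMod.unitsMap (dvd_mul_right M p) (ZMod.unitsMap hdvd w) =
        ZMod.unitsMap (dvd_mul_right M 4) (ZMod.unitsMap (dvd_mul_right (M * 4) p) w) := fun w => by
    rw [← MonoidHom.comp_apply, ZMod.unitsMap_comp, ← MonoidHom.comp_apply, ZMod.unitsMap_comp]
  have h₁ : Lvl.GammaH (M * 4 * p) (upH (M * 4) (upH M H 4) p) ≤
      Lvl.GammaH (M * p) (upH M H p) :=
    XC.GammaH_le_of_le_comap hdvd fun w hw => by
      change ZMod.unitsMap (dvd_mul_right M p) (ZMod.unitsMap hdvd w) ∈ H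
      rw [hcomp]
      exact hw
  obtain ⟨u', hu'⟩ := ZMod.unitsMap_surjective (dvd_mul_right (M * 4) p) (qUnit (M * 4) p hp hpM')
  refine transfer hpM hpM' (up_le M H 4) h₁ hA hν2 hν3 hp2 hdvd hu' ?_
  rw [← inv_mul_eq_one, ← map_inv, ← map_mul]
  refine Lvl.diamondHom_eq_one embC (Subgroup.mem_comap.mpr ?_)
  rw [map_mul, map_inv, hu, hcomp, hu', unitsMap_qUnit hp hpM hpM', inv_mul_cancel]
  exact one_mem H

end Fermat.BAD.Ord

end
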